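/-
S56, node [TAN] (helper9), file 1: THE COCYCLE OF A `k[ε]`-DEFORMATION, matrix level.

For a framed representation `r : GQ → GL₂(k[ε])` (`S53.FramedRep (DualNumber k)`) write
`r σ = B σ + ε N σ` (`B = s56t_bar r` the reduction, a homomorphism to `M₂(k)`) and put
`c σ := N σ * B σ⁻¹` (`s56t_coc r`).  Then
* `s56t_coc_mul`   : `c (σ τ) = c σ + B σ * c τ * B σ⁻¹` (a 1-cocycle for the adjoint action);
* `s56t_coc_level` : `c` factors through a finite level;
* `s56t_coc_trace` : if `det (r σ)` has no `ε`-part then `trace (c σ) = 0`;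
* `s56t_coc_eq_zero` : `r σ = 1 → c σ = 0`;
* `s56t_equiv_of_cob` : if `B = B'` and `c - c'` is the coboundary of `m`, then `r ≃ r'`
  (conjugation by `1 + ε m`).
Prefix `s56t_`.
-/
import Mathlib
import Fermat.Agent.S53.Framed
import Fermat.Agent.S53.FramedResidual
import Fermat.Agent.S53.Tangent

set_option autoImplicit false
set_option linter.unusedSectionVars false

namespace Fermat.Agent.S56

open Fermat.Agent.S53 Matrix

noncomputable section

variable {k : Type} [Field k]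

/-! ### matrices over the dual numbers -/

/-- the reduction mod `ε` of a matrix over `k[ε]` -/
def s56t_fst (M : Matrix (Fin 2) (Fin 2) (DualNumber k)) : Matrix (Fin 2) (Fin 2) k :=
  M.map TrivSqZeroExt.fst

/-- the `ε`-part of a matrix over `k[ε]` -/
def s56t_snd (M : Matrix (Fin 2) (Fin 2) (DualNumber k)) : Matrix (Fin 2) (Fin 2) k :=
  M.map TrivSqZeroExt.snd

/-- the matrix `M₀ + ε M₁` -/
def s56t_mk (M₀ M₁ : Matrix (Fin 2) (Fin 2) k) : Matrix (Fin 2) (Fin 2) (DualNumber k) :=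
  Matrix.of fun i j => ((M₀ i j, M₁ i j) : DualNumber k)

@[simp] theorem s56t_fst_apply (M : Matrix (Fin 2) (Fin 2) (DualNumber k)) (i j : Fin 2) :
    s56t_fst M i j = (M i j).fst := rfl

@[simp] theorem s56t_snd_apply (M : Matrix (Fin 2) (Fin 2) (DualNumber k)) (i j : Fin 2) :
    s56t_snd M i j = (M i j).snd := rfl

@[simp] theorem s56t_fst_mk (M₀ M₁ : Matrix (Fin 2) (Fin 2) k) : s56t_fst (s56t_mk M₀ M₁) = M₀ :=
  rfl

@[simp] theorem s56t_snd_mk (M₀ M₁ : Matrix (Fin 2) (Fin 2) k) : s56t_snd (s56t_mk M₀ M₁) = M₁ :=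
  rfl

theorem s56t_ext {M N : Matrix (Fin 2) (Fin 2) (DualNumber k)} (h0 : s56t_fst M = s56t_fst N)
    (h1 : s56t_snd M = s56t_snd N) : M = N := by
  ext i j
  · exact congrFun (congrFun h0 i) j
  · exact congrFun (congrFun h1 i) j

theorem s56t_mk_fst_snd (M : Matrix (Fin 2) (Fin 2) (DualNumber k)) :
    s56t_mk (s56t_fst M) (s56t_snd M) = M :=
  s56t_ext rfl rfl

theorem s56t_fst_mul (M N : Matrix (Fin 2) (Fin 2) (DualNumber k)) :
    s56t_fst (M * N) = s56t_fst M * s56t_fst N := by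
  ext i j
  simp only [s56t_fst_apply, Matrix.mul_apply, TrivSqZeroExt.fst_sum, TrivSqZeroExt.fst_mul]

theorem s56t_snd_mul (M N : Matrix (Fin 2) (Fin 2) (DualNumber k)) :
    s56t_snd (M * N) = s56t_fst M * s56t_snd N + s56t_snd M * s56t_fst N := by
  ext i j
  simp only [s56t_snd_apply, s56t_fst_apply, Matrix.mul_apply, Matrix.add_apply,
    TrivSqZeroExt.snd_sum, DualNumber.snd_mul, Finset.sum_add_distrib]

@[simp] theorem s56t_fst_one : s56t_fst (1 : Matrix (Fin 2) (Fin 2) (DualNumber k)) = 1 := by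
  ext i j
  by_cases h : i = j
  · subst h; simp
  · simp [Matrix.one_apply_ne h]

@[simp] theorem s56t_snd_one : s56t_snd (1 : Matrix (Fin 2) (Fin 2) (DualNumber k)) = 0 := by
  ext i j
  by_cases h : i = j
  · subst h; simp
  · simp [Matrix.one_apply_ne h]

theorem s56t_mk_mul (M₀ M₁ N₀ N₁ : Matrix (Fin 2) (Fin 2) k) :
    s56t_mk M₀ M₁ * s56t_mk N₀ N₁ = s56t_mk (M₀ * N₀) (M₀ * N₁ + M₁ * N₀) :=
  s56t_ext (by rw [s56t_fst_mul]; rfl) (by rw [s56t_snd_mul]; rfl)

theorem s56t_mk_one_zero : s56t_mk (1 : Matrix (Fin 2) (Fin 2) k) 0 = 1 :=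
  s56t_ext (by simp) (by simp)

/-- the `ε`-part of the determinant -/
theorem s56t_snd_det (M : Matrix (Fin 2) (Fin 2) (DualNumber k)) :
    (M.det).snd = Matrix.trace (Matrix.adjugate (s56t_fst M) * s56t_snd M) := by
  rw [Matrix.det_fin_two, Matrix.adjugate_fin_two, Matrix.trace_fin_two]
  simp only [Matrix.mul_apply, Fin.sum_univ_two, s56t_fst_apply, s56t_snd_apply,
    TrivSqZeroExt.snd_sub, DualNumber.snd_mul, Matrix.of_apply, Matrix.cons_val', Matrix.cons_val_zero,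
    Matrix.cons_val_one, Matrix.empty_val', Matrix.cons_val_fin_one]
  ring

theorem s56t_fst_det (M : Matrix (Fin 2) (Fin 2) (DualNumber k)) :
    (M.det).fst = (s56t_fst M).det := by
  rw [Matrix.det_fin_two, Matrix.det_fin_two]
  simp only [TrivSqZeroExt.fst_sub, TrivSqZeroExt.fst_mul, s56t_fst_apply]

/-! ### the cocycle of a framed representation over `k[ε]` -/

variable (r : FramedRep (DualNumber k))

/-- the reduction of `r` modulo `ε` -/
def s56t_bar : GQ →* Matrix (Fin 2) (Fin 2) k where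
  toFun σ := s56t_fst (r σ)
  map_one' := by rw [r.map_one, s56t_fst_one]
  map_mul' σ τ := by rw [r.map_mul, s56t_fst_mul]

@[simp] theorem s56t_bar_apply (σ : GQ) : s56t_bar r σ = s56t_fst (r σ) := rfl

theorem s56t_bar_mul_inv (σ : GQ) : s56t_bar r σ * s56t_bar r σ⁻¹ = 1 := by
  rw [← map_mul, mul_inv_cancel, map_one]

theorem s56t_bar_inv_mul (σ : GQ) : s56t_bar r σ⁻¹ * s56t_bar r σ = 1 := by
  rw [← map_mul, inv_mul_cancel, map_one]

/-- **the cocycle** `c σ = N σ * B σ⁻¹` of `r σ = B σ + ε N σ` -/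
def s56t_coc (σ : GQ) : Matrix (Fin 2) (Fin 2) k :=
  s56t_snd (r σ) * s56t_bar r σ⁻¹

theorem s56t_snd_eq (σ : GQ) : s56t_snd (r σ) = s56t_coc r σ * s56t_bar r σ := by
  rw [s56t_coc, Matrix.mul_assoc, s56t_bar_inv_mul, Matrix.mul_one]

/-- reconstruction of `r` from its reduction and its cocycle -/
theorem s56t_apply_eq (σ : GQ) : r σ = s56t_mk (s56t_bar r σ) (s56t_coc r σ * s56t_bar r σ) :=
  s56t_ext rfl (by rw [s56t_snd_mk, s56t_snd_eq])

/-- **the cocycle identity** -/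
theorem s56t_coc_mul (σ τ : GQ) :
    s56t_coc r (σ * τ) = s56t_coc r σ + s56t_bar r σ * s56t_coc r τ * s56t_bar r σ⁻¹ := by
  have h1 : s56t_bar r (σ * τ)⁻¹ = s56t_bar r τ⁻¹ * s56t_bar r σ⁻¹ := by
    rw [_root_.mul_inv_rev, map_mul]
  rw [s56t_coc, r.map_mul, s56t_snd_mul, h1, Matrix.add_mul, add_comm]
  congr 1
  · rw [← s56t_bar_apply r τ, Matrix.mul_assoc, ← Matrix.mul_assoc (s56t_bar r τ),
      s56t_bar_mul_inv, Matrix.one_mul, s56t_coc]
  · rw [← s56t_bar_apply r σ, s56t_coc, Matrix.mul_assoc, Matrix.mul_assoc, Matrix.mul_assoc]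

theorem s56t_coc_one : s56t_coc r 1 = 0 := by
  rw [s56t_coc, r.map_one, s56t_snd_one, Matrix.zero_mul]

theorem s56t_coc_eq_zero {σ : GQ} (h : r σ = 1) : s56t_coc r σ = 0 := by
  rw [s56t_coc, h, s56t_snd_one, Matrix.zero_mul]

theorem s56t_bar_eq_one {σ : GQ} (h : r σ = 1) : s56t_bar r σ = 1 := by
  rw [s56t_bar_apply, h, s56t_fst_one]

/-- `r` is trivial on an open subgroup -/
theorem s56t_exists_level : ∃ L : IntermediateField ℚ (AlgebraicClosure ℚ),
    FiniteDimensional ℚ L ∧ ∀ s : GQ, (∀ x ∈ L, s x = x) → r s = 1 := by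
  obtain ⟨L, hL, h⟩ := r.cont 2
  refine ⟨L, hL, fun s hs => ?_⟩
  have hsq : IsLocalRing.maximalIdeal (DualNumber k) ^ 2 = ⊥ := by
    rw [eq_bot_iff, pow_two, Ideal.mul_le]
    intro a ha b hb
    rw [mem_maximalIdeal_dualNumber_iff] at ha hb
    rw [Ideal.mem_bot]
    ext
    · rw [TrivSqZeroExt.fst_mul, ha, zero_mul, TrivSqZeroExt.fst_zero]
    · rw [DualNumber.snd_mul, ha, hb]
      simp
  have h0 : r s - 1 = 0 := Matrix.ext fun i j => by
    have := h s hs i j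
    rw [hsq, Ideal.mem_bot] at this
    exact this
  exact sub_eq_zero.mp h0

/-- **the cocycle factors through a finite level** -/
theorem s56t_coc_level : ∃ L : IntermediateField ℚ (AlgebraicClosure ℚ),
    FiniteDimensional ℚ L ∧ ∀ σ s : GQ, (∀ x ∈ L, s x = x) →
      s56t_coc r (σ * s) = s56t_coc r σ ∧ s56t_bar r (σ * s) = s56t_bar r σ := by
  obtain ⟨L, hL, h⟩ := s56t_exists_level r
  refine ⟨L, hL, fun σ s hs => ⟨?_, ?_⟩⟩
  · rw [s56t_coc_mul, s56t_coc_eq_zero r (h s hs), Matrix.mul_zero, Matrix.zero_mul, add_zero]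
  · rw [map_mul, s56t_bar_eq_one r (h s hs), mul_one]

/-- the determinant: `det (r σ) = det B (1 + ε trace c)` -/
theorem s56t_snd_det_apply (σ : GQ) :
    ((r σ).det).snd = (s56t_bar r σ).det * Matrix.trace (s56t_coc r σ) := by
  rw [s56t_snd_det, s56t_snd_eq, ← s56t_bar_apply, ← Matrix.mul_assoc, Matrix.trace_mul_comm,
    ← Matrix.mul_assoc, Matrix.mul_adjugate, Matrix.smul_mul, Matrix.one_mul, Matrix.trace_smul,
    smul_eq_mul]

theorem s56t_det_bar_ne_zero (σ : GQ) : (s56t_bar r σ).det ≠ 0 := by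
  intro h
  have h1 := congrArg Matrix.det (s56t_bar_mul_inv r σ)
  rw [Matrix.det_mul, h, zero_mul, Matrix.det_one] at h1
  exact zero_ne_one h1

/-- **fixed determinant ⟹ trace zero** -/
theorem s56t_coc_trace {σ : GQ} (h : ((r σ).det).snd = 0) : Matrix.trace (s56t_coc r σ) = 0 := by
  rw [s56t_snd_det_apply] at h
  exact (mul_eq_zero.mp h).resolve_left (s56t_det_bar_ne_zero r σ)

/-! ### cohomologous cocycles give equivalent deformations -/

/-- **same class ⟹ equivalent.** -/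
theorem s56t_equiv_of_cob (r r' : FramedRep (DualNumber k))
    (hbar : ∀ σ, s56t_bar r σ = s56t_bar r' σ) (m : Matrix (Fin 2) (Fin 2) k)
    (h : ∀ σ, s56t_coc r σ - s56t_coc r' σ = s56t_bar r σ * m * s56t_bar r σ⁻¹ - m) :
    r.toGaloisRepAdic.IsEquiv r'.toGaloisRepAdic := by
  rw [FramedRep.isEquiv_iff_conj]
  have hu : s56t_mk (1 : Matrix (Fin 2) (Fin 2) k) m * s56t_mk 1 (-m) = 1 := by
    rw [s56t_mk_mul, Matrix.one_mul, Matrix.one_mul, Matrix.mul_one, neg_add_cancel,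
      s56t_mk_one_zero]
  have hu' : s56t_mk (1 : Matrix (Fin 2) (Fin 2) k) (-m) * s56t_mk 1 m = 1 := by
    rw [s56t_mk_mul, Matrix.one_mul, Matrix.one_mul, Matrix.mul_one, add_neg_cancel,
      s56t_mk_one_zero]
  refine ⟨⟨s56t_mk 1 m, s56t_mk 1 (-m), hu, hu'⟩, fun σ => ?_⟩
  show s56t_mk 1 m * r σ = r' σ * s56t_mk 1 m
  rw [s56t_apply_eq r σ, s56t_apply_eq r' σ, s56t_mk_mul, s56t_mk_mul, ← hbar σ]
  simp only [Matrix.one_mul, Matrix.mul_one]
  congr 1
  -- `c B + m B = B m + c' B`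
  have h1 := h σ
  have h2 : s56t_coc r σ = s56t_coc r' σ + (s56t_bar r σ * m * s56t_bar r σ⁻¹ - m) := by
    rw [← h1]; abel
  rw [h2, Matrix.add_mul, Matrix.sub_mul, Matrix.mul_assoc (s56t_bar r σ * m), s56t_bar_inv_mul,
    Matrix.mul_one]
  abel

end

end Fermat.Agent.S56
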