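/-
S56, node [TAN] (helper9), file 4: `ad⁰ rb` AS A `Rep (ZMod p) G_ℚ` AND THE CLASS OF A COCYCLE,
in the vocabulary of `S56/GW/Seams.lean`.

For a group homomorphism `B : G_ℚ →* M₂(k)` (`k` a field with an `Algebra (ZMod p) k`):
* `s56t_ad0 p B : Rep (ZMod p) G_ℚ` on the trace-zero matrices, `σ • x = B σ * x * B σ⁻¹`;
  `s56t_ad0_finite`, `s56t_ad0_smooth`, `s56t_ad0_unrOut`;
* `s56t_IsCoc B c` : `c (σ τ) = c σ + B σ * c τ * B σ⁻¹` and `trace (c σ) = 0`;
* `s56t_cls p B c hc : H1 (s56t_ad0 p B)`; `s56t_cls_eq_iff` (equal classes ⟺ cohomologous);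
  `s56t_cls_mem_H1S` (level-constant for a field unramified outside `S` ⟹ `∈ continuousH1S S`);
  `s56t_loc_cls` (the localisation at `q` is the class of `c ∘ primeLocalToGlobal q`);
* for a framed deformation `r` over `k[ε]`: `s56t_isCoc_of_framed`, `s56t_framed_levelS`.
-/
import Mathlib
import Fermat.Agent.S56.Tan.Cocycle
import Fermat.Agent.S56.GW.Seams
import Fermat.Agent.S55.Tate.Explicit
import Fermat.Agent.S55.KernelField

set_option autoImplicit false
set_option linter.unusedSectionVars false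
set_option linter.style.haveILetI false

open CategoryTheory groupCohomology ExtCitation

namespace Fermat.Agent.S56

open Fermat.Agent.S53 Fermat.Agent.S55 Matrix

noncomputable section

variable {k : Type} [Field k] (p : ℕ) [Fact p.Prime] [Algebra (ZMod p) k]

/-- the trace-zero matrices as a `ZMod p`-module -/
def s56t_ad0Sub : Submodule (ZMod p) (Matrix (Fin 2) (Fin 2) k) :=
  (LinearMap.ker (Matrix.traceLinearMap (Fin 2) k k)).restrictScalars (ZMod p)

theorem s56t_mem_ad0Sub (x : Matrix (Fin 2) (Fin 2) k) :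
    x ∈ s56t_ad0Sub (k := k) p ↔ Matrix.trace x = 0 := by
  rw [s56t_ad0Sub, Submodule.restrictScalars_mem, LinearMap.mem_ker]
  rfl

/-- conjugation `x ↦ B * x * B'` as a `ZMod p`-linear map -/
def s56t_conjLin (B B' : Matrix (Fin 2) (Fin 2) k) :
    Matrix (Fin 2) (Fin 2) k →ₗ[ZMod p] Matrix (Fin 2) (Fin 2) k where
  toFun x := B * x * B'
  map_add' x y := by rw [Matrix.mul_add, Matrix.add_mul]
  map_smul' a x := by
    rw [RingHom.id_apply, Matrix.mul_smul, Matrix.smul_mul]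

variable (B : GQ →* Matrix (Fin 2) (Fin 2) k)

theorem s56t_B_mul_inv (σ : GQ) : B σ * B σ⁻¹ = 1 := by
  rw [← map_mul, mul_inv_cancel, map_one]

theorem s56t_B_inv_mul (σ : GQ) : B σ⁻¹ * B σ = 1 := by
  rw [← map_mul, inv_mul_cancel, map_one]

theorem s56t_trace_conj (σ : GQ) (x : Matrix (Fin 2) (Fin 2) k) :
    Matrix.trace (B σ * x * B σ⁻¹) = Matrix.trace x := by
  rw [Matrix.trace_mul_comm, ← Matrix.mul_assoc, s56t_B_inv_mul, Matrix.one_mul]

/-- the adjoint action on trace-zero matrices -/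
def s56t_ad0Rho : Representation (ZMod p) GQ (s56t_ad0Sub (k := k) p) where
  toFun σ := (s56t_conjLin p (B σ) (B σ⁻¹)).restrict (fun x hx => by
    rw [s56t_mem_ad0Sub] at hx ⊢
    show Matrix.trace (B σ * x * B σ⁻¹) = 0
    rw [s56t_trace_conj, hx])
  map_one' := by
    refine LinearMap.ext fun x => Subtype.ext ?_
    show B 1 * (x : Matrix (Fin 2) (Fin 2) k) * B 1⁻¹ = x
    rw [inv_one, map_one, Matrix.one_mul, Matrix.mul_one]
  map_mul' σ τ := by
    refine LinearMap.ext fun x => Subtype.ext ?_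
    show B (σ * τ) * (x : Matrix (Fin 2) (Fin 2) k) * B (σ * τ)⁻¹ =
      B σ * (B τ * (x : Matrix (Fin 2) (Fin 2) k) * B τ⁻¹) * B σ⁻¹
    rw [_root_.mul_inv_rev, map_mul, map_mul]
    simp only [Matrix.mul_assoc]

/-- **`ad⁰` as a `Rep (ZMod p) G_ℚ`.** -/
def s56t_ad0 : Rep.{0} (ZMod p) GQ := Rep.of (s56t_ad0Rho p B)

/-- the underlying matrix of an element of `ad⁰` -/
def s56t_val (x : (s56t_ad0 p B).V) : Matrix (Fin 2) (Fin 2) k :=
  (show ↥(s56t_ad0Sub (k := k) p) from x).1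

/-- the element of `ad⁰` given by a trace-zero matrix -/
def s56t_mkV (x : Matrix (Fin 2) (Fin 2) k) (hx : Matrix.trace x = 0) : (s56t_ad0 p B).V :=
  (⟨x, (s56t_mem_ad0Sub p x).mpr hx⟩ : ↥(s56t_ad0Sub (k := k) p))

@[simp] theorem s56t_val_mkV (x : Matrix (Fin 2) (Fin 2) k) (hx : Matrix.trace x = 0) :
    s56t_val p B (s56t_mkV p B x hx) = x := rfl

theorem s56t_val_injective : Function.Injective (s56t_val p B) := fun _ _ h => Subtype.ext h

theorem s56t_trace_val (x : (s56t_ad0 p B).V) : Matrix.trace (s56t_val p B x) = 0 :=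
  (s56t_mem_ad0Sub p _).mp (show ↥(s56t_ad0Sub (k := k) p) from x).2

@[simp] theorem s56t_val_rho (σ : GQ) (x : (s56t_ad0 p B).V) :
    s56t_val p B ((s56t_ad0 p B).ρ σ x) = B σ * s56t_val p B x * B σ⁻¹ := rfl

@[simp] theorem s56t_val_add (x y : (s56t_ad0 p B).V) :
    s56t_val p B (x + y) = s56t_val p B x + s56t_val p B y := rfl

@[simp] theorem s56t_val_sub (x y : (s56t_ad0 p B).V) :
    s56t_val p B (x - y) = s56t_val p B x - s56t_val p B y := rfl

@[simp] theorem s56t_val_zero : s56t_val p B (0 : (s56t_ad0 p B).V) = 0 := rfl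

/-! ### basic properties of `ad⁰` -/

instance s56t_ad0_finite [Finite k] : Module.Finite (ZMod p) (s56t_ad0 p B) := by
  haveI : Finite ↥(s56t_ad0Sub (k := k) p) := Subtype.finite
  exact (inferInstance : Module.Finite (ZMod p) ↥(s56t_ad0Sub (k := k) p))

theorem s56t_ad0_rho_eq_one {σ : GQ} (h : B σ = 1) : (s56t_ad0 p B).ρ σ = 1 := by
  refine LinearMap.ext fun x => s56t_val_injective p B ?_
  have h' : B σ⁻¹ = 1 := by
    have := s56t_B_inv_mul B σ
    rwa [h, Matrix.mul_one] at this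
  rw [s56t_val_rho, h, h', Matrix.one_mul, Matrix.mul_one]
  rfl

theorem s56t_ad0_smooth (hB : ∃ L : IntermediateField ℚ (AlgebraicClosure ℚ),
    FiniteDimensional ℚ L ∧ ∀ s : GQ, (∀ x ∈ L, s x = x) → B s = 1) :
    s56gw_Smooth (s56t_ad0 p B) := by
  obtain ⟨L, hL, h⟩ := hB
  intro m
  refine ⟨L, hL, fun s hs => ?_⟩
  have h1 : B s = 1 := h s fun x hx => by
    have := (IntermediateField.mem_fixingSubgroup_iff L s).mp hs x hx
    exact this
  rw [s56t_ad0_rho_eq_one p B h1]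
  rfl

theorem s56t_ad0_unrOut (S : Finset Nat.Primes)
    (hB : ∀ q : Nat.Primes, q ∉ S → ∀ A : ValuationSubring (AlgebraicClosure ℚ),
      A.LiesOverPrime (q : ℕ) → ∀ g ∈ A.inertiaSubgroupIn ℚ, B g = 1) :
    s56gw_UnrOut S (s56t_ad0 p B) :=
  fun q hq A hA g hg => s56t_ad0_rho_eq_one p B (hB q hq A hA g hg)

/-! ### cocycles and their classes -/

/-- `c` is a trace-zero cocycle for the adjoint action of `B`. -/
def s56t_IsCoc (c : GQ → Matrix (Fin 2) (Fin 2) k) : Prop :=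
  (∀ σ τ, c (σ * τ) = c σ + B σ * c τ * B σ⁻¹) ∧ ∀ σ, Matrix.trace (c σ) = 0

variable {B}

/-- the function `G_ℚ → ad⁰` of a trace-zero cocycle -/
def s56t_fn (c : GQ → Matrix (Fin 2) (Fin 2) k) (hc : s56t_IsCoc B c) :
    GQ → (s56t_ad0 p B).V :=
  fun σ => s56t_mkV p B (c σ) (hc.2 σ)

theorem s56t_fn_isZ1 (c : GQ → Matrix (Fin 2) (Fin 2) k) (hc : s56t_IsCoc B c) :
    te_IsZ1 (s56t_ad0 p B) (s56t_fn p c hc) := by
  intro g h
  apply s56t_val_injective p B
  rw [s56t_val_add, s56t_val_rho]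
  show c (g * h) = B g * c h * B g⁻¹ + c g
  rw [hc.1 g h, add_comm]

/-- **the class of a trace-zero cocycle** -/
def s56t_cls (c : GQ → Matrix (Fin 2) (Fin 2) k) (hc : s56t_IsCoc B c) : H1 (s56t_ad0 p B) :=
  te_cl1 (s56t_ad0 p B) (s56t_fn p c hc) (s56t_fn_isZ1 p c hc)

theorem s56t_isCoc_sub {c c' : GQ → Matrix (Fin 2) (Fin 2) k} (hc : s56t_IsCoc B c)
    (hc' : s56t_IsCoc B c') : s56t_IsCoc B (c - c') := by
  refine ⟨fun σ τ => ?_, fun σ => ?_⟩
  · simp only [Pi.sub_apply]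
    rw [hc.1, hc'.1, Matrix.mul_sub, Matrix.sub_mul]
    abel
  · simp only [Pi.sub_apply]
    rw [Matrix.trace_sub, hc.2, hc'.2, sub_zero]

theorem s56t_cls_sub {c c' : GQ → Matrix (Fin 2) (Fin 2) k} (hc : s56t_IsCoc B c)
    (hc' : s56t_IsCoc B c') :
    s56t_cls p c hc - s56t_cls p c' hc' = s56t_cls p (c - c') (s56t_isCoc_sub hc hc') := by
  rw [s56t_cls, s56t_cls, s56t_cls, te_cl1, te_cl1, te_cl1, ← map_sub]
  rfl

theorem s56t_cls_eq_zero_iff (c : GQ → Matrix (Fin 2) (Fin 2) k) (hc : s56t_IsCoc B c) :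
    s56t_cls p c hc = 0 ↔
      ∃ m : Matrix (Fin 2) (Fin 2) k, Matrix.trace m = 0 ∧ ∀ σ, c σ = B σ * m * B σ⁻¹ - m := by
  rw [s56t_cls, te_cl1_eq_zero_iff]
  constructor
  · rintro ⟨a, ha⟩
    refine ⟨s56t_val p B a, s56t_trace_val p B a, fun σ => ?_⟩
    have := congrArg (s56t_val p B) (congrFun ha σ)
    exact this
  · rintro ⟨m, hm, h⟩
    refine ⟨s56t_mkV p B m hm, funext fun σ => s56t_val_injective p B ?_⟩
    show c σ = B σ * m * B σ⁻¹ - m
    exact h σ

/-- **equal classes ⟺ cohomologous.** -/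
theorem s56t_cls_eq_iff {c c' : GQ → Matrix (Fin 2) (Fin 2) k} (hc : s56t_IsCoc B c)
    (hc' : s56t_IsCoc B c') :
    s56t_cls p c hc = s56t_cls p c' hc' ↔
      ∃ m : Matrix (Fin 2) (Fin 2) k, Matrix.trace m = 0 ∧
        ∀ σ, c σ - c' σ = B σ * m * B σ⁻¹ - m := by
  rw [← sub_eq_zero, s56t_cls_sub, s56t_cls_eq_zero_iff]
  rfl

/-- **continuity**: a cocycle constant on the cosets of `Fix F`, `F` unramified outside `S`,
has its class in `continuousH1S S`. -/
theorem s56t_cls_mem_H1S (S : Finset Nat.Primes) (c : GQ → Matrix (Fin 2) (Fin 2) k)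
    (hc : s56t_IsCoc B c)
    (hlev : ∃ F : IntermediateField ℚ (AlgebraicClosure ℚ), F.IsUnramifiedOutside S ∧
      ∀ g s, s ∈ F.fixingSubgroup → c (g * s) = c g) :
    s56t_cls p c hc ∈ continuousH1S S (s56t_ad0 p B) := by
  rw [mem_continuousH1S_iff]
  obtain ⟨F, hF, h⟩ := hlev
  refine ⟨⟨s56t_fn p c hc, (te_isZ1_iff _ _).mp (s56t_fn_isZ1 p c hc)⟩, ⟨F, hF, fun g s hs => ?_⟩, rfl⟩
  apply s56t_val_injective p B
  show c (g * s) = c g
  exact h g s hs

/-- **localisation**: the restriction to the local group at `q` is the class of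
`c ∘ primeLocalToGlobal q`. -/
theorem s56t_loc_cls (q : Nat.Primes) (c : GQ → Matrix (Fin 2) (Fin 2) k)
    (hc : s56t_IsCoc B c) :
    s56gw_loc (s56t_ad0 p B) q (s56t_cls p c hc) =
      te_cl1 (s56gw_res (s56t_ad0 p B) q) (fun h => s56t_fn p c hc (primeLocalToGlobal q h))
        (te_isZ1_map (primeLocalToGlobal q) (𝟙 (s56gw_res (s56t_ad0 p B) q))
          (s56t_fn_isZ1 p c hc)) :=
  te_map_cl1 (primeLocalToGlobal q) (𝟙 (s56gw_res (s56t_ad0 p B) q)) (s56t_fn_isZ1 p c hc)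

/-! ### framed deformations over the dual numbers -/

omit [Fact p.Prime] [Algebra (ZMod p) k] in
theorem s56t_isCoc_of_framed (r : FramedRep (DualNumber k))
    (hbar : ∀ σ, s56t_bar r σ = B σ) (htr : ∀ σ, Matrix.trace (s56t_coc r σ) = 0) :
    s56t_IsCoc B (s56t_coc r) :=
  ⟨fun σ τ => by rw [s56t_coc_mul, hbar, hbar], htr⟩

omit [Fact p.Prime] [Algebra (ZMod p) k] in
/-- the kernel field of a framed deformation over `k[ε]`: a finite extension, unramified
outside `S` when `r` is, such that `r` is trivial exactly on its fixing subgroup. -/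
theorem s56t_framed_kernelField (r : FramedRep (DualNumber k)) (S : Finset Nat.Primes)
    (hunr : ∀ q : Nat.Primes, q ∉ S → ∀ A : ValuationSubring (AlgebraicClosure ℚ),
      A.LiesOverPrime (q : ℕ) → ∀ g ∈ A.inertiaSubgroupIn ℚ, r g = 1) :
    ∃ F : IntermediateField ℚ (AlgebraicClosure ℚ), F.IsUnramifiedOutside S ∧
      ∀ s, s ∈ F.fixingSubgroup ↔ r s = 1 := by
  obtain ⟨L, hL, h⟩ := s56t_exists_level r
  have hle : L.fixingSubgroup ≤ r.toMonoidHom.ker := fun s hs =>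
    MonoidHom.mem_ker.2 (h s fun x hx => (IntermediateField.mem_fixingSubgroup_iff L s).mp hs x hx)
  have hopen : IsOpen (r.toMonoidHom.ker : Set GQ) :=
    Subgroup.isOpen_mono hle (IntermediateField.fixingSubgroup_isOpen L)
  have hfix := tl_fixingSubgroup_fixedField_of_isOpen _ hopen
  refine ⟨IntermediateField.fixedField r.toMonoidHom.ker,
    ⟨tl_finiteDimensional_fixedField _ hopen, fun q hq A hA g hg => ?_⟩, fun s => ?_⟩
  · rw [hfix]
    exact MonoidHom.mem_ker.2 (hunr q hq A hA g hg)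
  · rw [hfix]
    exact MonoidHom.mem_ker

omit [Fact p.Prime] [Algebra (ZMod p) k] in
/-- **the cocycle of a deformation unramified outside `S` is `S`-level-constant.** -/
theorem s56t_framed_levelS (r : FramedRep (DualNumber k)) (S : Finset Nat.Primes)
    (hunr : ∀ q : Nat.Primes, q ∉ S → ∀ A : ValuationSubring (AlgebraicClosure ℚ),
      A.LiesOverPrime (q : ℕ) → ∀ g ∈ A.inertiaSubgroupIn ℚ, r g = 1) :
    ∃ F : IntermediateField ℚ (AlgebraicClosure ℚ), F.IsUnramifiedOutside S ∧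
      ∀ g s, s ∈ F.fixingSubgroup → s56t_coc r (g * s) = s56t_coc r g := by
  obtain ⟨F, hF, h⟩ := s56t_framed_kernelField r S hunr
  refine ⟨F, hF, fun g s hs => ?_⟩
  rw [s56t_coc_mul, s56t_coc_eq_zero r ((h s).mp hs), Matrix.mul_zero, Matrix.zero_mul, add_zero]

/-- **the class of a deformation unramified outside `S` lies in `continuousH1S S`.** -/
theorem s56t_framed_cls_mem (r : FramedRep (DualNumber k)) (hbar : ∀ σ, s56t_bar r σ = B σ)
    (htr : ∀ σ, Matrix.trace (s56t_coc r σ) = 0) (S : Finset Nat.Primes)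
    (hunr : ∀ q : Nat.Primes, q ∉ S → ∀ A : ValuationSubring (AlgebraicClosure ℚ),
      A.LiesOverPrime (q : ℕ) → ∀ g ∈ A.inertiaSubgroupIn ℚ, r g = 1) :
    s56t_cls p (s56t_coc r) (s56t_isCoc_of_framed r hbar htr) ∈
      continuousH1S S (s56t_ad0 p B) :=
  s56t_cls_mem_H1S p S _ _ (s56t_framed_levelS r S hunr)

end

end Fermat.Agent.S56
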