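/-
S56, node [TAN] (helper9), file 2: TRANSPORT OF THE FROZEN LOCAL CONDITIONS ALONG AN EQUIVALENCE
of `GaloisRepAdic`s (any local ring `A`).

For `e : ρ.Equiv ρ'`:
* `s56t_tr_conj`      : `ρ'.ρ σ = e.toLinearEquiv.conj (ρ.ρ σ)`;
* `s56t_tr_det`, `s56t_tr_charpoly`, `s56t_tr_eq_one`;
* `s56t_tr_detIsCyclotomic`, `s56t_tr_isUnramifiedAt`, `s56t_tr_isUnipotentOnInertiaAt`,
  `s56t_tr_isOrdinaryAt`, `s56t_tr_isStrictOrdinaryAt`, `s56t_tr_isFlatAt`;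
* `s56t_tr_strictOrdinaryCondition`, `s56t_tr_flatCondition`.
Prefix `s56t_tr_`.
-/
import Mathlib
import Fermat.Prelude.Def_GaloisRep_LocalConditions
import Fermat.Prelude.Def_GaloisRep_StrictOrdinary
import Fermat.Prelude.Def_GaloisRep_Flat

set_option autoImplicit false
set_option linter.unusedSectionVars false

namespace Fermat.Agent.S56

noncomputable section

variable {A : Type} [CommRing A] [IsLocalRing A] {ρ ρ' : GaloisRepAdic A}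

local notation "GQ'" => (AlgebraicClosure ℚ ≃ₐ[ℚ] AlgebraicClosure ℚ)

theorem s56t_tr_apply (e : ρ.Equiv ρ') (σ : GQ') (x : ρ'.V) :
    ρ'.ρ σ x = e.toLinearEquiv (ρ.ρ σ (e.toLinearEquiv.symm x)) := by
  rw [e.map_apply, LinearEquiv.apply_symm_apply]

theorem s56t_tr_conj (e : ρ.Equiv ρ') (σ : GQ') :
    ρ'.ρ σ = e.toLinearEquiv.conj (ρ.ρ σ) := by
  refine LinearMap.ext fun x => ?_
  rw [LinearEquiv.conj_apply_apply]
  exact s56t_tr_apply e σ x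

theorem s56t_tr_det (e : ρ.Equiv ρ') (σ : GQ') :
    LinearMap.det (ρ'.ρ σ) = LinearMap.det (ρ.ρ σ) := by
  rw [s56t_tr_conj e σ, LinearEquiv.conj_apply]
  exact LinearMap.det_conj (ρ.ρ σ) e.toLinearEquiv

theorem s56t_tr_charpoly (e : ρ.Equiv ρ') (σ : GQ') :
    LinearMap.charpoly (ρ'.ρ σ) = LinearMap.charpoly (ρ.ρ σ) := by
  rw [s56t_tr_conj e σ]
  exact LinearEquiv.charpoly_conj e.toLinearEquiv (ρ.ρ σ)

theorem s56t_tr_eq_one (e : ρ.Equiv ρ') {σ : GQ'} (h : ρ.ρ σ = 1) : ρ'.ρ σ = 1 := by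
  refine LinearMap.ext fun x => ?_
  rw [s56t_tr_apply e σ x, h, Module.End.one_apply, Module.End.one_apply,
    LinearEquiv.apply_symm_apply]

theorem s56t_tr_detIsCyclotomic (e : ρ.Equiv ρ') {p : ℕ} (h : ρ.DetIsCyclotomic p) :
    ρ'.DetIsCyclotomic p :=
  ⟨h.1, fun n σ a ha => by rw [s56t_tr_det e σ]; exact h.2 n σ a ha⟩

theorem s56t_tr_isUnramifiedAt (e : ρ.Equiv ρ') {q : ℕ} (h : ρ.IsUnramifiedAt q) :
    ρ'.IsUnramifiedAt q :=
  fun P hP σ hσ => s56t_tr_eq_one e (h P hP σ hσ)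

theorem s56t_tr_isUnipotentOnInertiaAt (e : ρ.Equiv ρ') {q : ℕ}
    (h : ρ.IsUnipotentOnInertiaAt q) : ρ'.IsUnipotentOnInertiaAt q :=
  fun P hP σ hσ => by rw [s56t_tr_charpoly e σ]; exact h P hP σ hσ

/-- the transported line -/
theorem s56t_tr_line (e : ρ.Equiv ρ') (L : Submodule A ρ.V)
    (hb : ∃ b : Module.Basis (Fin 2) A ρ.V, L = A ∙ b 0) :
    ∃ b : Module.Basis (Fin 2) A ρ'.V, L.map (e.toLinearEquiv : ρ.V →ₗ[A] ρ'.V) = A ∙ b 0 := by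
  obtain ⟨b, rfl⟩ := hb
  refine ⟨b.map e.toLinearEquiv, ?_⟩
  rw [Submodule.map_span, Set.image_singleton, Module.Basis.map_apply]
  rfl

theorem s56t_tr_mem_map (e : ρ.Equiv ρ') (L : Submodule A ρ.V) {x : ρ'.V} :
    x ∈ L.map (e.toLinearEquiv : ρ.V →ₗ[A] ρ'.V) ↔ e.toLinearEquiv.symm x ∈ L := by
  constructor
  · rintro ⟨y, hy, rfl⟩
    rw [LinearEquiv.coe_coe, LinearEquiv.symm_apply_apply]
    exact hy
  · intro h
    exact ⟨_, h, by rw [LinearEquiv.coe_coe, LinearEquiv.apply_symm_apply]⟩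

theorem s56t_tr_symm_apply (e : ρ.Equiv ρ') (σ : GQ') (x : ρ'.V) :
    e.toLinearEquiv.symm (ρ'.ρ σ x) = ρ.ρ σ (e.toLinearEquiv.symm x) := by
  rw [s56t_tr_apply e σ x, LinearEquiv.symm_apply_apply]

theorem s56t_tr_isOrdinaryAt (e : ρ.Equiv ρ') {p : ℕ} (h : ρ.IsOrdinaryAt p) :
    ρ'.IsOrdinaryAt p := by
  intro P hP
  obtain ⟨L, hb, hD, hI⟩ := h P hP
  refine ⟨L.map (e.toLinearEquiv : ρ.V →ₗ[A] ρ'.V), s56t_tr_line e L hb, ?_, ?_⟩
  · intro σ hσ v hv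
    rw [s56t_tr_mem_map] at hv ⊢
    rw [s56t_tr_symm_apply]
    exact hD σ hσ _ hv
  · intro σ hσ v
    rw [s56t_tr_mem_map, map_sub, s56t_tr_symm_apply]
    exact hI σ hσ _

theorem s56t_tr_isStrictOrdinaryAt (e : ρ.Equiv ρ') {p : ℕ} (h : ρ.IsStrictOrdinaryAt p) :
    ρ'.IsStrictOrdinaryAt p := by
  refine ⟨h.1, fun P hP => ?_⟩
  obtain ⟨L, hb, hD, hI, hx⟩ := h.2 P hP
  refine ⟨L.map (e.toLinearEquiv : ρ.V →ₗ[A] ρ'.V), s56t_tr_line e L hb, ?_, ?_, ?_⟩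
  · intro σ hσ v hv
    rw [s56t_tr_mem_map] at hv ⊢
    rw [s56t_tr_symm_apply]
    exact hD σ hσ _ hv
  · intro σ hσ v
    rw [s56t_tr_mem_map, map_sub, s56t_tr_symm_apply]
    exact hI σ hσ _
  · intro σ hσ
    obtain ⟨x, z, h1, h2, h3⟩ := hx σ hσ
    refine ⟨x, z, ?_, ?_, h3⟩
    · intro w hw
      rw [s56t_tr_mem_map] at hw
      rw [s56t_tr_apply e σ w, h1 _ hw, map_smul, LinearEquiv.apply_symm_apply]
    · intro v
      rw [s56t_tr_mem_map, map_sub, s56t_tr_symm_apply, map_smul]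
      exact h2 _

/-! ### flatness -/

theorem s56t_tr_map_smul_top (e : ρ.Equiv ρ') (I : Ideal A) :
    (I • (⊤ : Submodule A ρ.V)).map (e.toLinearEquiv : ρ.V →ₗ[A] ρ'.V) =
      I • (⊤ : Submodule A ρ'.V) := by
  rw [Submodule.map_smul'', Submodule.map_top, LinearEquiv.range]

/-- the induced equivalence of the level quotients -/
def s56t_tr_quot (e : ρ.Equiv ρ') (I : Ideal A) :
    (ρ.V ⧸ (I • (⊤ : Submodule A ρ.V))) ≃ₗ[A] (ρ'.V ⧸ (I • (⊤ : Submodule A ρ'.V))) :=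
  Submodule.Quotient.equiv _ _ e.toLinearEquiv (s56t_tr_map_smul_top e I)

theorem s56t_tr_quot_level (e : ρ.Equiv ρ') (I : Ideal A) (σ : GQ')
    (m : ρ.V ⧸ (I • (⊤ : Submodule A ρ.V))) :
    s56t_tr_quot e I (ρ.levelAction I σ m) = ρ'.levelAction I σ (s56t_tr_quot e I m) := by
  obtain ⟨v, rfl⟩ := Submodule.Quotient.mk_surjective _ m
  show s56t_tr_quot e I (Submodule.Quotient.mk (ρ.ρ σ v)) =
    ρ'.levelAction I σ (Submodule.Quotient.mk (e.toLinearEquiv v))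
  show Submodule.Quotient.mk (e.toLinearEquiv (ρ.ρ σ v)) =
    Submodule.Quotient.mk (ρ'.ρ σ (e.toLinearEquiv v))
  rw [e.map_apply]

theorem s56t_tr_isFlatAt (e : ρ.Equiv ρ') {p : ℕ} (h : ρ.IsFlatAt p) : ρ'.IsFlatAt p := by
  refine ⟨h.1, fun I hI => ?_⟩
  obtain ⟨H, i1, i2, hfin, hflat, hcocomm, eH, hadd, hact⟩ := h.2 I hI
  refine ⟨H, i1, i2, hfin, hflat, hcocomm, eH.trans (s56t_tr_quot e I).toEquiv, ?_, ?_⟩
  · intro f g
    show s56t_tr_quot e I (eH (f * g)) = s56t_tr_quot e I (eH f) + s56t_tr_quot e I (eH g)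
    rw [hadd, map_add]
  · intro σ f g hfg
    show s56t_tr_quot e I (eH g) = ρ'.levelAction I σ (s56t_tr_quot e I (eH f))
    rw [hact σ f g hfg, s56t_tr_quot_level]

/-! ### the global conditions -/

theorem s56t_tr_strictOrdinaryCondition {𝒪 : Type} [CommRing 𝒪] [Algebra 𝒪 A] (e : ρ.Equiv ρ')
    {p : ℕ} {S : Finset ℕ} (h : GaloisRep.strictOrdinaryCondition 𝒪 p S ρ) :
    GaloisRep.strictOrdinaryCondition 𝒪 p S ρ' :=
  ⟨s56t_tr_detIsCyclotomic e h.1, s56t_tr_isStrictOrdinaryAt e h.2.1,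
    fun q hq hqS => s56t_tr_isUnramifiedAt e (h.2.2 q hq hqS)⟩

theorem s56t_tr_flatCondition {𝒪 : Type} [CommRing 𝒪] [Algebra 𝒪 A] (e : ρ.Equiv ρ')
    {p : ℕ} {S : Finset ℕ} (h : GaloisRep.flatCondition 𝒪 p S ρ) :
    GaloisRep.flatCondition 𝒪 p S ρ' :=
  ⟨s56t_tr_detIsCyclotomic e h.1, s56t_tr_isFlatAt e h.2.1,
    fun q hq hqS => s56t_tr_isUnramifiedAt e (h.2.2 q hq hqS)⟩

end

end Fermat.Agent.S56
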