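/-
S56, node [TAN] (helper9), file 3: FRAMING THE SPECIALISATIONS `s56ps_spec DQ φ` WITH ONE FIXED
RESIDUAL FRAME.

Fix a framing `rb : FramedResidual k` of `ρbar` (`k = ResidueField 𝒪`) and ONE framing
`rR : FramedRep DQ.R` of the universal deformation lifting `rb` (`s56t_exists_univ_frame`).  For every
`φ : DQ.R →ₐ[𝒪] k[ε]` put `s56t_frame DQ rR φ := rR.map φ`.  Then
* `s56t_frame_isEquiv`  : `s56ps_spec DQ φ ≃ (s56t_frame DQ rR φ).toGaloisRepAdic`;
* `s56t_frame_bar`      : `s56t_bar (s56t_frame DQ rR φ) σ = rb σ` — all cocycles live in one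
  `Z¹(G_ℚ, Ad rb)`;
* `s56t_frame_coc_of_not_surjective` : the non-surjective `φ` has cocycle `0`;
* `s56t_frame_inj` : cohomologous cocycles ⟹ `φ = φ'`.
Also the dictionary between the frozen conditions on a framed representation over `k[ε]` and
matrix identities (`s56t_framed_*`, `s56t_cyc_*`).
-/
import Mathlib
import Fermat.Agent.S56.Tan.Cocycle
import Fermat.Agent.S56.Tan.Transport
import Fermat.Agent.S56.PS.Spec

set_option autoImplicit false
set_option linter.unusedSectionVars false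
set_option linter.style.haveILetI false

namespace Fermat.Agent.S56

open Fermat.Agent.S53 Matrix IsLocalRing

noncomputable section

/-! ### framed representations: determinant, characteristic polynomial, triviality -/

section Framed

variable {A : Type} [CommRing A] [IsLocalRing A] (r : FramedRep A)

theorem s56t_framed_det (σ : GQ) : LinearMap.det (r.toGaloisRepAdic.ρ σ) = (r σ).det :=
  LinearMap.det_toLin' (r σ)

theorem s56t_framed_charpoly (σ : GQ) :
    LinearMap.charpoly (r.toGaloisRepAdic.ρ σ) = (r σ).charpoly :=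
  Matrix.charpoly_toLin' (r σ)

theorem s56t_framed_eq_one_iff (σ : GQ) : r.toGaloisRepAdic.ρ σ = 1 ↔ r σ = 1 := by
  constructor
  · intro h
    have h1 : Matrix.toLin' (r σ) = Matrix.toLin' (1 : Matrix (Fin 2) (Fin 2) A) := by
      rw [Matrix.toLin'_one]; exact h
    exact Matrix.toLin'.injective h1
  · intro h
    show Matrix.toLin' (r σ) = 1
    rw [h, Matrix.toLin'_one]; rfl

end Framed

/-! ### the dictionary over the dual numbers -/

section Dual

variable {k : Type} [Field k] (r : FramedRep (DualNumber k))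

/-- for every `σ` and `n ≠ 0` there is an exponent `a` with `σ μ = μ ^ a` on `μ_n`. -/
theorem s56t_exists_cyc (n : ℕ) [NeZero n] (σ : GQ) :
    ∃ a : ℕ, ∀ μ : AlgebraicClosure ℚ, μ ^ n = 1 → σ μ = μ ^ a := by
  refine ⟨((modularCyclotomicCharacter (AlgebraicClosure ℚ)
    (HasEnoughRootsOfUnity.natCard_rootsOfUnity (AlgebraicClosure ℚ) n)
    (MulSemiringAction.toRingAut GQ (AlgebraicClosure ℚ) σ) : (ZMod n)ˣ) : ZMod n).val,
    fun μ hμ => ?_⟩
  have hu : IsUnit μ := IsUnit.of_pow_eq_one hμ (NeZero.ne n)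
  obtain ⟨u, rfl⟩ := hu
  have hmem : u ∈ rootsOfUnity n (AlgebraicClosure ℚ) := by
    rw [mem_rootsOfUnity]
    exact Units.ext (by simpa using hμ)
  exact modularCyclotomicCharacter.spec (AlgebraicClosure ℚ)
    (HasEnoughRootsOfUnity.natCard_rootsOfUnity (AlgebraicClosure ℚ) n)
    (MulSemiringAction.toRingAut GQ (AlgebraicClosure ℚ) σ) hmem

theorem s56t_natCast_dual (p : ℕ) (hp : (p : DualNumber k) ∈ maximalIdeal (DualNumber k)) :
    (p : DualNumber k) = 0 := by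
  rw [mem_maximalIdeal_dualNumber_iff] at hp
  ext
  · exact hp
  · simp

/-- **cyclotomic determinant ⟹ the determinant has no `ε`-part.** -/
theorem s56t_cyc_det {p : ℕ} [NeZero p] (h : r.toGaloisRepAdic.DetIsCyclotomic p) (σ : GQ) :
    ∃ a : ℕ, (r σ).det = (a : DualNumber k) ∧
      ∀ μ : AlgebraicClosure ℚ, μ ^ p = 1 → σ μ = μ ^ a := by
  obtain ⟨a, ha⟩ := s56t_exists_cyc p σ
  refine ⟨a, ?_, ha⟩
  have h1 := h.2 1 σ a (by simpa using ha)
  rw [pow_one, s56t_natCast_dual p h.1, Ideal.span_singleton_eq_bot.mpr rfl, Ideal.mem_bot,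
    sub_eq_zero, s56t_framed_det] at h1
  exact h1

theorem s56t_cyc_det_snd {p : ℕ} [NeZero p] (h : r.toGaloisRepAdic.DetIsCyclotomic p) (σ : GQ) :
    ((r σ).det).snd = 0 := by
  obtain ⟨a, ha, -⟩ := s56t_cyc_det r h σ
  rw [ha]
  simp

/-- **cyclotomic determinant ⟹ the cocycle has trace zero.** -/
theorem s56t_cyc_trace {p : ℕ} [NeZero p] (h : r.toGaloisRepAdic.DetIsCyclotomic p) (σ : GQ) :
    Matrix.trace (s56t_coc r σ) = 0 :=
  s56t_coc_trace r (s56t_cyc_det_snd r h σ)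

/-- the determinant of the reduction is the mod `p` cyclotomic character. -/
theorem s56t_cyc_det_bar {p : ℕ} [NeZero p] (h : r.toGaloisRepAdic.DetIsCyclotomic p) (σ : GQ) :
    ∃ a : ℕ, (s56t_bar r σ).det = (a : k) ∧
      ∀ μ : AlgebraicClosure ℚ, μ ^ p = 1 → σ μ = μ ^ a := by
  obtain ⟨a, ha, ha'⟩ := s56t_cyc_det r h σ
  refine ⟨a, ?_, ha'⟩
  rw [s56t_bar_apply, ← s56t_fst_det, ha]
  simp

/-- **unramified ⟹ the cocycle vanishes on inertia and the reduction is trivial there.** -/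
theorem s56t_unram {q : ℕ} (h : r.toGaloisRepAdic.IsUnramifiedAt q)
    (P : ValuationSubring (AlgebraicClosure ℚ)) (hP : P.LiesOverPrime q) (σ : GQ)
    (hσ : σ ∈ P.inertiaSubgroupIn ℚ) : r σ = 1 ∧ s56t_coc r σ = 0 ∧ s56t_bar r σ = 1 := by
  have h1 : r σ = 1 := (s56t_framed_eq_one_iff r σ).mp (h P hP σ hσ)
  exact ⟨h1, s56t_coc_eq_zero r h1, s56t_bar_eq_one r h1⟩

/-- **unipotent on inertia, matrix form.** -/
theorem s56t_unip {q : ℕ} (h : r.toGaloisRepAdic.IsUnipotentOnInertiaAt q)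
    (P : ValuationSubring (AlgebraicClosure ℚ)) (hP : P.LiesOverPrime q) (σ : GQ)
    (hσ : σ ∈ P.inertiaSubgroupIn ℚ) : (r σ).charpoly = (Polynomial.X - 1) ^ 2 := by
  rw [← s56t_framed_charpoly]
  exact h P hP σ hσ

end Dual

/-! ### the universal frame and the frames of the specialisations -/

section Spec

variable {𝒪 : Type} [CommRing 𝒪] [IsDomain 𝒪] [IsDiscreteValuationRing 𝒪]
  [IsAdicComplete (maximalIdeal 𝒪) 𝒪]
  {ρbar : ResidualGaloisRep (ResidueField 𝒪)}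
  {𝒟 : ∀ ⦃A : Type⦄ [CommRing A] [IsLocalRing A] [Algebra 𝒪 A], GaloisRepAdic A → Prop}

attribute [local instance] S53.dualNumberAlgebra

/-- a framing of the universal deformation lifting a given framing of `ρbar`. -/
theorem s56t_exists_univ_frame (DQ : GaloisRep.DeformationRingData 𝒪 ρbar 𝒟)
    {rb : FramedResidual (ResidueField 𝒪)} (hrb : ρbar.IsEquiv rb.toResidualGaloisRep) :
    ∃ rR : FramedRep DQ.R, DQ.ρ.IsEquiv rR.toGaloisRepAdic ∧
      rR.IsLiftOf rb (ResidueField.map (algebraMap 𝒪 DQ.R)) :=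
  exists_framedLift DQ.ρ hrb _ DQ.residual_isEquiv

/-- the frame of the specialisation along `φ`. -/
def s56t_frame (DQ : GaloisRep.DeformationRingData 𝒪 ρbar 𝒟) (rR : FramedRep DQ.R)
    (φ : DQ.R →ₐ[𝒪] DualNumber (ResidueField 𝒪)) : FramedRep (DualNumber (ResidueField 𝒪)) :=
  rR.map (φ : DQ.R →+* DualNumber (ResidueField 𝒪)) (s56ps_isLocalHom DQ φ)

@[simp] theorem s56t_frame_apply (DQ : GaloisRep.DeformationRingData 𝒪 ρbar 𝒟)
    (rR : FramedRep DQ.R) (φ : DQ.R →ₐ[𝒪] DualNumber (ResidueField 𝒪)) (σ : GQ) :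
    s56t_frame DQ rR φ σ = (rR σ).map φ := rfl

theorem s56t_frame_isEquiv (DQ : GaloisRep.DeformationRingData 𝒪 ρbar 𝒟) (rR : FramedRep DQ.R)
    (hR : DQ.ρ.IsEquiv rR.toGaloisRepAdic) (φ : DQ.R →ₐ[𝒪] DualNumber (ResidueField 𝒪)) :
    (s56ps_spec DQ φ).IsEquiv (s56t_frame DQ rR φ).toGaloisRepAdic := by
  obtain ⟨e⟩ := hR
  obtain ⟨e'⟩ := FramedRep.baseChangeAlong_isEquiv
    (φ : DQ.R →+* DualNumber (ResidueField 𝒪)) (s56ps_isLocalHom DQ φ) rR
  exact ⟨(e.baseChangeAlong (φ : DQ.R →+* DualNumber (ResidueField 𝒪))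
    (s56ps_isLocalHom DQ φ)).trans e'⟩

/-- the first component of `φ a` is the residue of `a`. -/
theorem s56t_fst_of_residue (DQ : GaloisRep.DeformationRingData 𝒪 ρbar 𝒟)
    (φ : DQ.R →ₐ[𝒪] DualNumber (ResidueField 𝒪)) (a : DQ.R) (x : ResidueField 𝒪)
    (h : residue DQ.R a = ResidueField.map (algebraMap 𝒪 DQ.R) x) :
    TrivSqZeroExt.fst (φ a) = x := by
  obtain ⟨o, rfl⟩ := residue_surjective x
  rw [ResidueField.map_residue] at h
  have hu : a - algebraMap 𝒪 DQ.R o ∈ maximalIdeal DQ.R := by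
    rw [← residue_eq_zero_iff, map_sub, sub_eq_zero]
    exact h
  have h1 : φ (a - algebraMap 𝒪 DQ.R o) ∈ maximalIdeal (DualNumber (ResidueField 𝒪)) := by
    haveI := s56ps_isLocalHom DQ φ
    exact map_nonunit (φ : DQ.R →+* DualNumber (ResidueField 𝒪)) _ hu
  rw [mem_maximalIdeal_dualNumber_iff, map_sub, AlgHom.commutes,
    S53.algebraMap_dualNumber_apply, TrivSqZeroExt.fst_sub, sub_eq_zero] at h1
  rw [h1]
  simp [TrivSqZeroExt.algebraMap_eq_inl]

/-- **all the frames reduce to the fixed residual frame.** -/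
theorem s56t_frame_bar (DQ : GaloisRep.DeformationRingData 𝒪 ρbar 𝒟) (rR : FramedRep DQ.R)
    {rb : FramedResidual (ResidueField 𝒪)}
    (hlift : rR.IsLiftOf rb (ResidueField.map (algebraMap 𝒪 DQ.R)))
    (φ : DQ.R →ₐ[𝒪] DualNumber (ResidueField 𝒪)) (σ : GQ) :
    s56t_bar (s56t_frame DQ rR φ) σ = rb σ := by
  ext i j
  rw [s56t_bar_apply, s56t_fst_apply, s56t_frame_apply, Matrix.map_apply]
  refine s56t_fst_of_residue DQ φ _ _ ?_
  have := congrFun (congrFun (hlift σ) i) j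
  rwa [Matrix.map_apply, Matrix.map_apply] at this

/-- a non-surjective `φ` has no `ε`-part. -/
theorem s56t_snd_of_not_surjective (DQ : GaloisRep.DeformationRingData 𝒪 ρbar 𝒟)
    (φ : DQ.R →ₐ[𝒪] DualNumber (ResidueField 𝒪)) (h : ¬ Function.Surjective φ) (a : DQ.R) :
    TrivSqZeroExt.snd (φ a) = 0 := by
  obtain ⟨o, ho⟩ := DQ.residue_surjective (residue DQ.R a)
  have hu : a - algebraMap 𝒪 DQ.R o ∈ maximalIdeal DQ.R := by
    rw [← residue_eq_zero_iff, map_sub, sub_eq_zero]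
    exact ho.symm
  have h1 : φ (a - algebraMap 𝒪 DQ.R o) ∈ maximalIdeal (DualNumber (ResidueField 𝒪)) := by
    haveI := s56ps_isLocalHom DQ φ
    exact map_nonunit (φ : DQ.R →+* DualNumber (ResidueField 𝒪)) _ hu
  rw [mem_maximalIdeal_dualNumber_iff] at h1
  have h2 : TrivSqZeroExt.snd (φ (a - algebraMap 𝒪 DQ.R o)) = 0 := by
    by_contra hne
    exact h (s56ps_surjective_of_snd_ne_zero DQ φ _ h1 hne)
  rw [map_sub, AlgHom.commutes, S53.algebraMap_dualNumber_apply, TrivSqZeroExt.snd_sub,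
    sub_eq_zero] at h2
  rw [h2]
  simp [TrivSqZeroExt.algebraMap_eq_inl]

/-- **the non-surjective specialisation has cocycle zero.** -/
theorem s56t_frame_coc_of_not_surjective (DQ : GaloisRep.DeformationRingData 𝒪 ρbar 𝒟)
    (rR : FramedRep DQ.R) (φ : DQ.R →ₐ[𝒪] DualNumber (ResidueField 𝒪))
    (h : ¬ Function.Surjective φ) (σ : GQ) : s56t_coc (s56t_frame DQ rR φ) σ = 0 := by
  have h1 : s56t_snd (s56t_frame DQ rR φ σ) = 0 := by
    ext i j
    rw [s56t_snd_apply, s56t_frame_apply, Matrix.map_apply, Matrix.zero_apply]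
    exact s56t_snd_of_not_surjective DQ φ h _
  rw [s56t_coc, h1, Matrix.zero_mul]

/-- **cohomologous cocycles ⟹ the same map.** -/
theorem s56t_frame_inj (DQ : GaloisRep.DeformationRingData 𝒪 ρbar 𝒟)
    (h𝒟 : ∀ φ : DQ.R →ₐ[𝒪] DualNumber (ResidueField 𝒪), Function.Surjective φ →
      𝒟 (s56ps_spec DQ φ))
    (rR : FramedRep DQ.R) (hR : DQ.ρ.IsEquiv rR.toGaloisRepAdic)
    {rb : FramedResidual (ResidueField 𝒪)}
    (hlift : rR.IsLiftOf rb (ResidueField.map (algebraMap 𝒪 DQ.R)))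
    (φ φ' : DQ.R →ₐ[𝒪] DualNumber (ResidueField 𝒪)) (m : Matrix (Fin 2) (Fin 2) (ResidueField 𝒪))
    (h : ∀ σ, s56t_coc (s56t_frame DQ rR φ) σ - s56t_coc (s56t_frame DQ rR φ') σ =
      rb σ * m * rb σ⁻¹ - m) : φ = φ' := by
  refine s56ps_spec_inj DQ h𝒟 φ φ' ?_
  obtain ⟨e1⟩ := s56t_frame_isEquiv DQ rR hR φ
  obtain ⟨e2⟩ := s56t_frame_isEquiv DQ rR hR φ'
  obtain ⟨e3⟩ := s56t_equiv_of_cob (s56t_frame DQ rR φ) (s56t_frame DQ rR φ')
    (fun σ => by rw [s56t_frame_bar DQ rR hlift, s56t_frame_bar DQ rR hlift]) m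
    (fun σ => by rw [h σ, s56t_frame_bar DQ rR hlift, s56t_frame_bar DQ rR hlift])
  exact ⟨(e1.trans e3).trans e2.symm⟩

end Spec

end

end Fermat.Agent.S56
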