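/-
S56, node [TAN] (helper9), file 5: THE COUNTING ADAPTER `tangent space ↪ H¹(G_ℚ, ad⁰)`.

`s56t_count` : let `rb` be a framing of `ρbar`, `M := s56t_ad0 p rb` and `W ≤ H¹(G_ℚ, M)` a finite
subspace containing the class of (the cocycle of) every framed deformation `r` over `k[ε]` of type
`𝒟` with reduction `rb`.  If `#W ≤ #k ^ n` then every finite family of `𝒪`-algebra maps
`DQ.R → k[ε]` has at most `#k ^ n` members — the inner clause of the Selmer-side seams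
`s56ps_SelStrict_stmt` / `s56ps_SelFlat_stmt` of `S56/PS/Top.lean`.
`s56t_count_strict`, `s56t_count_flat` : the same for the two frozen conditions of S56.
-/
import Mathlib
import Fermat.Agent.S56.Tan.Spec
import Fermat.Agent.S56.Tan.Rep
import Fermat.Agent.S56.PS.Conditions

set_option autoImplicit false
set_option linter.unusedSectionVars false
set_option linter.style.haveILetI false

open CategoryTheory groupCohomology ExtCitation

namespace Fermat.Agent.S56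

open Fermat.Agent.S53 Fermat.Agent.S55 Matrix IsLocalRing

noncomputable section

variable {𝒪 : Type} [CommRing 𝒪] [IsDomain 𝒪] [IsDiscreteValuationRing 𝒪]
  [IsAdicComplete (maximalIdeal 𝒪) 𝒪]
  {ρbar : ResidualGaloisRep (ResidueField 𝒪)}
  {𝒟 : ∀ ⦃A : Type⦄ [CommRing A] [IsLocalRing A] [Algebra 𝒪 A], GaloisRepAdic A → Prop}

attribute [local instance] S53.dualNumberAlgebra

/-- **the counting adapter.** -/
theorem s56t_count (p : ℕ) [Fact p.Prime] [Algebra (ZMod p) (ResidueField 𝒪)]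
    (DQ : GaloisRep.DeformationRingData 𝒪 ρbar 𝒟)
    (h𝒟 : ∀ φ : DQ.R →ₐ[𝒪] DualNumber (ResidueField 𝒪), Function.Surjective φ →
      𝒟 (s56ps_spec DQ φ))
    (h𝒟eq : ∀ ρ ρ' : GaloisRepAdic (DualNumber (ResidueField 𝒪)), ρ.Equiv ρ' → 𝒟 ρ → 𝒟 ρ')
    (h𝒟det : ∀ ρ : GaloisRepAdic (DualNumber (ResidueField 𝒪)), 𝒟 ρ → ρ.DetIsCyclotomic p)
    (rb : FramedResidual (ResidueField 𝒪)) (hrb : ρbar.IsEquiv rb.toResidualGaloisRep)
    (W : Submodule (ZMod p) (H1 (s56t_ad0 p rb.toMonoidHom))) [Finite W]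
    (hW : ∀ (r : FramedRep (DualNumber (ResidueField 𝒪)))
      (hc : s56t_IsCoc rb.toMonoidHom (s56t_coc r)), (∀ σ, s56t_bar r σ = rb σ) →
      𝒟 r.toGaloisRepAdic → s56t_cls p (s56t_coc r) hc ∈ W)
    (n : ℕ) (hcard : Nat.card W ≤ Nat.card (ResidueField 𝒪) ^ n)
    (F : Finset (DQ.R →ₐ[𝒪] DualNumber (ResidueField 𝒪))) :
    F.card ≤ Nat.card (ResidueField 𝒪) ^ n := by
  classical
  haveI : NeZero p := ⟨(Fact.out : p.Prime).ne_zero⟩
  obtain ⟨rR, hR, hlift⟩ := s56t_exists_univ_frame DQ hrb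
  have hbar : ∀ (φ : DQ.R →ₐ[𝒪] DualNumber (ResidueField 𝒪)) (σ : GQ),
      s56t_bar (s56t_frame DQ rR φ) σ = rb.toMonoidHom σ :=
    fun φ σ => s56t_frame_bar DQ rR hlift φ σ
  have htype : ∀ φ : DQ.R →ₐ[𝒪] DualNumber (ResidueField 𝒪), Function.Surjective φ →
      𝒟 (s56t_frame DQ rR φ).toGaloisRepAdic := by
    intro φ hs
    obtain ⟨e⟩ := s56t_frame_isEquiv DQ rR hR φ
    exact h𝒟eq _ _ e (h𝒟 φ hs)
  have htr : ∀ (φ : DQ.R →ₐ[𝒪] DualNumber (ResidueField 𝒪)) (σ : GQ),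
      Matrix.trace (s56t_coc (s56t_frame DQ rR φ) σ) = 0 := by
    intro φ σ
    by_cases hs : Function.Surjective φ
    · exact s56t_cyc_trace _ (h𝒟det _ (htype φ hs)) σ
    · rw [s56t_frame_coc_of_not_surjective DQ rR φ hs, Matrix.trace_zero]
  have hcoc : ∀ φ : DQ.R →ₐ[𝒪] DualNumber (ResidueField 𝒪),
      s56t_IsCoc rb.toMonoidHom (s56t_coc (s56t_frame DQ rR φ)) :=
    fun φ => s56t_isCoc_of_framed _ (hbar φ) (htr φ)
  have hfW : ∀ φ : DQ.R →ₐ[𝒪] DualNumber (ResidueField 𝒪),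
      s56t_cls p (s56t_coc (s56t_frame DQ rR φ)) (hcoc φ) ∈ W := by
    intro φ
    by_cases hs : Function.Surjective φ
    · exact hW _ (hcoc φ) (hbar φ) (htype φ hs)
    · have h0 : s56t_cls p (s56t_coc (s56t_frame DQ rR φ)) (hcoc φ) = 0 := by
        rw [s56t_cls_eq_zero_iff]
        refine ⟨0, Matrix.trace_zero _ _, fun σ => ?_⟩
        rw [s56t_frame_coc_of_not_surjective DQ rR φ hs, Matrix.mul_zero, Matrix.zero_mul,
          sub_zero]
      rw [h0]
      exact W.zero_mem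
  let f : {φ // φ ∈ F} → W := fun φ => ⟨_, hfW φ.1⟩
  have hinj : Function.Injective f := by
    intro φ φ' h
    have h1 := congrArg Subtype.val h
    obtain ⟨m, -, hm⟩ := (s56t_cls_eq_iff p (hcoc φ.1) (hcoc φ'.1)).mp h1
    exact Subtype.ext (s56t_frame_inj DQ h𝒟 rR hR hlift φ.1 φ'.1 m hm)
  calc F.card = Nat.card {φ // φ ∈ F} := by
        rw [Nat.card_eq_fintype_card, Fintype.card_coe]
    _ ≤ Nat.card W := Nat.card_le_card_of_injective f hinj
    _ ≤ Nat.card (ResidueField 𝒪) ^ n := hcard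

/-- the finrank form of the cardinality hypothesis. -/
theorem s56t_card_le_of_finrank (p : ℕ) [Fact p.Prime] {k : Type} [Field k] [Finite k]
    [Algebra (ZMod p) k] {V : Type} [AddCommGroup V] [Module (ZMod p) V]
    (W : Submodule (ZMod p) V) [FiniteDimensional (ZMod p) W] (n : ℕ)
    (h : Module.finrank (ZMod p) W ≤ n * Module.finrank (ZMod p) k) :
    Nat.card W ≤ Nat.card k ^ n := by
  rw [Module.natCard_eq_pow_finrank (K := ZMod p) (V := W),
    Module.natCard_eq_pow_finrank (K := ZMod p) (V := k), ← pow_mul, mul_comm]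
  exact Nat.pow_le_pow_right Nat.card_pos h

/-- **the counting adapter for the strict-ordinary half of S56.** -/
theorem s56t_count_strict (p : ℕ) [Fact p.Prime] [Algebra (ZMod p) (ResidueField 𝒪)]
    (Smin Q : Finset ℕ)
    (DQ : GaloisRep.DeformationRingData 𝒪 ρbar (fun _A _ _ _ ρ =>
      GaloisRep.strictOrdinaryCondition 𝒪 p Q ρ ∧
        ∀ q ∈ Smin, q.Prime → q ≠ p → ρ.IsUnipotentOnInertiaAt q))
    (rb : FramedResidual (ResidueField 𝒪)) (hrb : ρbar.IsEquiv rb.toResidualGaloisRep)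
    (W : Submodule (ZMod p) (H1 (s56t_ad0 p rb.toMonoidHom))) [Finite W]
    (hW : ∀ (r : FramedRep (DualNumber (ResidueField 𝒪)))
      (hc : s56t_IsCoc rb.toMonoidHom (s56t_coc r)), (∀ σ, s56t_bar r σ = rb σ) →
      (GaloisRep.strictOrdinaryCondition 𝒪 p Q r.toGaloisRepAdic ∧
        ∀ q ∈ Smin, q.Prime → q ≠ p → r.toGaloisRepAdic.IsUnipotentOnInertiaAt q) →
      s56t_cls p (s56t_coc r) hc ∈ W)
    (n : ℕ) (hcard : Nat.card W ≤ Nat.card (ResidueField 𝒪) ^ n)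
    (F : Finset (DQ.R →ₐ[𝒪] DualNumber (ResidueField 𝒪))) :
    F.card ≤ Nat.card (ResidueField 𝒪) ^ n :=
  s56t_count p DQ
    (fun φ _ => ⟨s56bc_strictOrdinaryCondition _ (s56ps_isLocalHom DQ φ) DQ.ρ p Q DQ.isOfType.1,
      fun q hq hqp hne => s56bc_unipotent _ (s56ps_isLocalHom DQ φ) DQ.ρ q
        (DQ.isOfType.2 q hq hqp hne)⟩)
    (fun _ _ e h => ⟨s56t_tr_strictOrdinaryCondition e h.1,
      fun q hq hqp hne => s56t_tr_isUnipotentOnInertiaAt e (h.2 q hq hqp hne)⟩)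
    (fun _ h => h.1.1) rb hrb W hW n hcard F

/-- **the counting adapter for the flat half of S56.** -/
theorem s56t_count_flat (p : ℕ) [Fact p.Prime] [Algebra (ZMod p) (ResidueField 𝒪)]
    (Smin Q : Finset ℕ)
    (DQ : GaloisRep.DeformationRingData 𝒪 ρbar (fun _A _ _ _ ρ =>
      GaloisRep.flatCondition 𝒪 p Q ρ ∧
        ∀ q ∈ Smin, q.Prime → q ≠ p → ρ.IsUnipotentOnInertiaAt q))
    (rb : FramedResidual (ResidueField 𝒪)) (hrb : ρbar.IsEquiv rb.toResidualGaloisRep)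
    (W : Submodule (ZMod p) (H1 (s56t_ad0 p rb.toMonoidHom))) [Finite W]
    (hW : ∀ (r : FramedRep (DualNumber (ResidueField 𝒪)))
      (hc : s56t_IsCoc rb.toMonoidHom (s56t_coc r)), (∀ σ, s56t_bar r σ = rb σ) →
      (GaloisRep.flatCondition 𝒪 p Q r.toGaloisRepAdic ∧
        ∀ q ∈ Smin, q.Prime → q ≠ p → r.toGaloisRepAdic.IsUnipotentOnInertiaAt q) →
      s56t_cls p (s56t_coc r) hc ∈ W)
    (n : ℕ) (hcard : Nat.card W ≤ Nat.card (ResidueField 𝒪) ^ n)
    (F : Finset (DQ.R →ₐ[𝒪] DualNumber (ResidueField 𝒪))) :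
    F.card ≤ Nat.card (ResidueField 𝒪) ^ n :=
  s56t_count p DQ
    (fun φ hφ => ⟨s56bc_flatCondition _ (s56ps_isLocalHom DQ φ) DQ.ρ hφ p Q DQ.isOfType.1,
      fun q hq hqp hne => s56bc_unipotent _ (s56ps_isLocalHom DQ φ) DQ.ρ q
        (DQ.isOfType.2 q hq hqp hne)⟩)
    (fun _ _ e h => ⟨s56t_tr_flatCondition e h.1,
      fun q hq hqp hne => s56t_tr_isUnipotentOnInertiaAt e (h.2 q hq hqp hne)⟩)
    (fun _ h => h.1.1) rb hrb W hW n hcard F

end

end Fermat.Agent.S56
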