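/-
S56, node [TAN]/(ASM-CLS) (helper9), file 6: LOCAL CONDITIONS FROM SPACES OF COCYCLES.

`B : G_ℚ →* M₂(k)`, `M := s56t_ad0 p B`, `D ≤ G_ℚ` a subgroup.
* `s56t_cobOn B D : Submodule k (G_ℚ → M₂(k))` : functions that are a coboundary `σ ↦ B σ m B σ⁻¹ - m`
  (`trace m = 0`) on `D`;
* `s56t_inv B D : Submodule k M₂(k)` : trace-zero matrices commuting with `B σ`, `σ ∈ D`
  (`= H⁰(D, ad⁰)`);
* `s56t_Zlev B : Submodule k (G_ℚ → M₂(k))` : trace-zero cocycles of finite level;
* `s56t_finrank_invariants` : `dim_{F_p} H⁰(H, res_f M) = [k:F_p] · dim_k (s56t_inv B f.range)`;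
* `s56t_locImage p B q C` : the `F_p`-space of local classes at `q` of the finite-level cocycles
  in `C`; it consists of continuous classes and has
  `dim_{F_p} ≤ [k:F_p] · dim_k (C / C ⊓ cobOn D_q)`.
-/
import Mathlib
import Fermat.Agent.S56.Tan.Rep

set_option autoImplicit false
set_option linter.unusedSectionVars false
set_option linter.style.haveILetI false

open CategoryTheory groupCohomology ExtCitation Module

namespace Fermat.Agent.S56

open Fermat.Agent.S53 Fermat.Agent.S55 Matrix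

noncomputable section

variable {k : Type} [Field k] (p : ℕ) [Fact p.Prime] [Algebra (ZMod p) k]
  (B : GQ →* Matrix (Fin 2) (Fin 2) k)

/-- functions `G_ℚ → M₂(k)` that restrict to a (trace-zero) coboundary on `D`. -/
def s56t_cobOn (D : Subgroup GQ) : Submodule k (GQ → Matrix (Fin 2) (Fin 2) k) where
  carrier := {c | ∃ m : Matrix (Fin 2) (Fin 2) k, Matrix.trace m = 0 ∧
    ∀ s ∈ D, c s = B s * m * B s⁻¹ - m}
  add_mem' := by
    rintro c c' ⟨m, hm, h⟩ ⟨m', hm', h'⟩
    refine ⟨m + m', by rw [Matrix.trace_add, hm, hm', add_zero], fun s hs => ?_⟩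
    rw [Pi.add_apply, h s hs, h' s hs, Matrix.mul_add, Matrix.add_mul]
    abel
  zero_mem' := ⟨0, Matrix.trace_zero _ _, fun s _ => by simp⟩
  smul_mem' := by
    rintro a c ⟨m, hm, h⟩
    refine ⟨a • m, by rw [Matrix.trace_smul, hm, smul_zero], fun s hs => ?_⟩
    rw [Pi.smul_apply, h s hs, Matrix.mul_smul, Matrix.smul_mul, smul_sub]

/-- `H⁰(D, ad⁰)`: trace-zero matrices commuting with `B σ`, `σ ∈ D`. -/
def s56t_inv (D : Subgroup GQ) : Submodule k (Matrix (Fin 2) (Fin 2) k) where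
  carrier := {m | Matrix.trace m = 0 ∧ ∀ s ∈ D, B s * m = m * B s}
  add_mem' := by
    rintro m m' ⟨hm, h⟩ ⟨hm', h'⟩
    exact ⟨by rw [Matrix.trace_add, hm, hm', add_zero], fun s hs => by
      rw [Matrix.mul_add, Matrix.add_mul, h s hs, h' s hs]⟩
  zero_mem' := ⟨Matrix.trace_zero _ _, fun s _ => by simp⟩
  smul_mem' := by
    rintro a m ⟨hm, h⟩
    exact ⟨by rw [Matrix.trace_smul, hm, smul_zero], fun s hs => by
      rw [Matrix.mul_smul, Matrix.smul_mul, h s hs]⟩

theorem s56t_mem_inv {D : Subgroup GQ} {m : Matrix (Fin 2) (Fin 2) k} :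
    m ∈ s56t_inv B D ↔ Matrix.trace m = 0 ∧ ∀ s ∈ D, B s * m = m * B s := Iff.rfl

theorem s56t_mem_cobOn {D : Subgroup GQ} {c : GQ → Matrix (Fin 2) (Fin 2) k} :
    c ∈ s56t_cobOn B D ↔ ∃ m : Matrix (Fin 2) (Fin 2) k, Matrix.trace m = 0 ∧
      ∀ s ∈ D, c s = B s * m * B s⁻¹ - m := Iff.rfl

/-- commuting with `B s` ⟺ fixed by conjugation. -/
theorem s56t_conj_eq_iff (s : GQ) (m : Matrix (Fin 2) (Fin 2) k) :
    B s * m * B s⁻¹ = m ↔ B s * m = m * B s := by
  constructor
  · intro h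
    calc B s * m = B s * m * (B s⁻¹ * B s) := by rw [s56t_B_inv_mul, Matrix.mul_one]
      _ = (B s * m * B s⁻¹) * B s := by simp only [Matrix.mul_assoc]
      _ = m * B s := by rw [h]
  · intro h
    rw [h, Matrix.mul_assoc, s56t_B_mul_inv, Matrix.mul_one]

/-! ### trace-zero cocycles of finite level -/

/-- the `k`-space of trace-zero cocycles of finite level. -/
def s56t_Zlev : Submodule k (GQ → Matrix (Fin 2) (Fin 2) k) where
  carrier := {c | s56t_IsCoc B c ∧ IsLevelConstant₁ (MonoidHom.id GQ) c}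
  add_mem' := by
    rintro c c' ⟨⟨h1, h2⟩, hl⟩ ⟨⟨h1', h2'⟩, hl'⟩
    refine ⟨⟨fun σ τ => ?_, fun σ => ?_⟩, hl.add hl'⟩
    · simp only [Pi.add_apply]
      rw [h1, h1', Matrix.mul_add, Matrix.add_mul]
      abel
    · rw [Pi.add_apply, Matrix.trace_add, h2, h2', add_zero]
  zero_mem' := ⟨⟨fun σ τ => by simp, fun σ => by simp⟩, isLevelConstant₁_const _ _⟩
  smul_mem' := by
    rintro a c ⟨⟨h1, h2⟩, hl⟩
    refine ⟨⟨fun σ τ => ?_, fun σ => ?_⟩, hl.comp (a • ·)⟩
    · simp only [Pi.smul_apply]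
      rw [h1, smul_add, Matrix.mul_smul, Matrix.smul_mul]
    · rw [Pi.smul_apply, Matrix.trace_smul, h2, smul_zero]

theorem s56t_mem_Zlev {c : GQ → Matrix (Fin 2) (Fin 2) k} :
    c ∈ s56t_Zlev B ↔ s56t_IsCoc B c ∧ IsLevelConstant₁ (MonoidHom.id GQ) c := Iff.rfl

/-! ### invariants -/

section Inv

variable {H : Type} [Group H] (f : H →* GQ)

theorem s56t_res_rho (h : H) (x : (s56t_ad0 p B).V) :
    (Rep.res f (s56t_ad0 p B)).ρ h x = (s56t_ad0 p B).ρ (f h) x := rfl

/-- the `F_p`-linear identification `H⁰(H, res_f ad⁰) ≃ s56t_inv B f.range`. -/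
def s56t_invEquiv :
    ↥((Rep.res f (s56t_ad0 p B)).ρ.invariants) ≃ₗ[ZMod p]
      ↥((s56t_inv B f.range).restrictScalars (ZMod p)) where
  toFun x := ⟨s56t_val p B x.1, by
    rw [Submodule.restrictScalars_mem, s56t_mem_inv]
    refine ⟨s56t_trace_val p B x.1, ?_⟩
    rintro s ⟨h, rfl⟩
    rw [← s56t_conj_eq_iff]
    have := congrArg (s56t_val p B) ((Representation.mem_invariants _ _).mp x.2 h)
    rwa [s56t_res_rho, s56t_val_rho] at this⟩
  map_add' x y := rfl
  map_smul' a x := rfl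
  invFun m := ⟨s56t_mkV p B m.1 ((s56t_mem_inv B).mp m.2).1, by
    rw [Representation.mem_invariants]
    intro h
    apply s56t_val_injective p B
    rw [s56t_res_rho, s56t_val_rho, s56t_val_mkV, s56t_conj_eq_iff]
    exact ((s56t_mem_inv B).mp m.2).2 (f h) ⟨h, rfl⟩⟩
  left_inv x := rfl
  right_inv m := rfl

/-- **`dim_{F_p} H⁰(H, res_f ad⁰) = [k:F_p] · dim_k H⁰(f(H), ad⁰)`.** -/
theorem s56t_finrank_invariants :
    finrank (ZMod p) ↥((Rep.res f (s56t_ad0 p B)).ρ.invariants) =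
      finrank (ZMod p) k * finrank k ↥(s56t_inv B f.range) := by
  rw [LinearEquiv.finrank_eq (s56t_invEquiv p B f)]
  exact (Module.finrank_mul_finrank (ZMod p) k ↥(s56t_inv B f.range)).symm

end Inv

/-! ### the local image of a space of cocycles -/

section LinAlg

/-- if `g v = 0 → f v = 0` then `range f` is a quotient of `range g`. -/
theorem s56t_finrank_range_le {F V W Q : Type*} [Field F] [AddCommGroup V] [Module F V]
    [AddCommGroup W] [Module F W] [AddCommGroup Q] [Module F Q] [FiniteDimensional F Q]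
    (f : V →ₗ[F] W) (g : V →ₗ[F] Q) (h : ∀ v, g v = 0 → f v = 0) :
    FiniteDimensional F (LinearMap.range f) ∧
      finrank F (LinearMap.range f) ≤ finrank F Q := by
  have hle : LinearMap.ker g ≤ LinearMap.ker f := fun v hv =>
    LinearMap.mem_ker.mpr (h v (LinearMap.mem_ker.mp hv))
  have hr : LinearMap.range ((LinearMap.ker g).liftQ f hle) = LinearMap.range f :=
    Submodule.range_liftQ _ _ _
  haveI : FiniteDimensional F (V ⧸ LinearMap.ker g) :=
    LinearEquiv.finiteDimensional g.quotKerEquivRange.symm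
  have h1 : finrank F (V ⧸ LinearMap.ker g) ≤ finrank F Q := by
    rw [LinearEquiv.finrank_eq g.quotKerEquivRange]
    exact Submodule.finrank_le _
  rw [← hr]
  exact ⟨inferInstance, (LinearMap.finrank_range_le _).trans h1⟩

end LinAlg

variable {B}

theorem s56t_isCoc_add {c c' : GQ → Matrix (Fin 2) (Fin 2) k} (hc : s56t_IsCoc B c)
    (hc' : s56t_IsCoc B c') : s56t_IsCoc B (c + c') := by
  refine ⟨fun σ τ => ?_, fun σ => ?_⟩
  · simp only [Pi.add_apply]
    rw [hc.1, hc'.1, Matrix.mul_add, Matrix.add_mul]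
    abel
  · simp only [Pi.add_apply]
    rw [Matrix.trace_add, hc.2, hc'.2, add_zero]

theorem s56t_cls_add {c c' : GQ → Matrix (Fin 2) (Fin 2) k} (hc : s56t_IsCoc B c)
    (hc' : s56t_IsCoc B c') :
    s56t_cls p (c + c') (s56t_isCoc_add hc hc') = s56t_cls p c hc + s56t_cls p c' hc' := by
  rw [s56t_cls, s56t_cls, s56t_cls, te_cl1, te_cl1, te_cl1, ← map_add]
  rfl

theorem s56t_fn_isZ1_loc (q : Nat.Primes) (c : GQ → Matrix (Fin 2) (Fin 2) k)
    (hc : s56t_IsCoc B c) :
    te_IsZ1 (s56gw_res (s56t_ad0 p B) q) (fun h => s56t_fn p c hc (primeLocalToGlobal q h)) :=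
  te_isZ1_map (primeLocalToGlobal q) (𝟙 (s56gw_res (s56t_ad0 p B) q)) (s56t_fn_isZ1 p c hc)

/-- `s56t_loc_cls` with a clean cocycle proof. -/
theorem s56t_loc_cls' (q : Nat.Primes) (c : GQ → Matrix (Fin 2) (Fin 2) k)
    (hc : s56t_IsCoc B c) :
    s56gw_loc (s56t_ad0 p B) q (s56t_cls p c hc) =
      te_cl1 (s56gw_res (s56t_ad0 p B) q) (fun h => s56t_fn p c hc (primeLocalToGlobal q h))
        (s56t_fn_isZ1_loc p q c hc) :=
  s56t_loc_cls p q c hc

variable (B)

theorem s56t_inf_isCoc {C : Submodule k (GQ → Matrix (Fin 2) (Fin 2) k)}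
    (c : ↥(C ⊓ s56t_Zlev B)) : s56t_IsCoc B c.1 := (Submodule.mem_inf.mp c.2).2.1

theorem s56t_inf_level {C : Submodule k (GQ → Matrix (Fin 2) (Fin 2) k)}
    (c : ↥(C ⊓ s56t_Zlev B)) : IsLevelConstant₁ (MonoidHom.id GQ) c.1 :=
  (Submodule.mem_inf.mp c.2).2.2

/-- the local class at `q` of a finite-level cocycle in `C`, as an additive map. -/
def s56t_locHom (q : Nat.Primes) (C : Submodule k (GQ → Matrix (Fin 2) (Fin 2) k)) :
    ↥(C ⊓ s56t_Zlev B) →+ H1 (s56gw_res (s56t_ad0 p B) q) :=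
  AddMonoidHom.mk' (fun c => s56gw_loc (s56t_ad0 p B) q (s56t_cls p c.1 (s56t_inf_isCoc B c)))
    (fun c c' => by
      show s56gw_loc (s56t_ad0 p B) q (s56t_cls p (c.1 + c'.1) _) = _
      rw [s56t_cls_add p (s56t_inf_isCoc B c) (s56t_inf_isCoc B c'), map_add])

/-- **the `F_p`-space of local classes at `q` of the finite-level cocycles in `C`.** -/
def s56t_locImage (q : Nat.Primes) (C : Submodule k (GQ → Matrix (Fin 2) (Fin 2) k)) :
    Submodule (ZMod p) (H1 (s56gw_res (s56t_ad0 p B) q)) :=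
  LinearMap.range ((s56t_locHom p B q C).toZModLinearMap p)

theorem s56t_mem_locImage (q : Nat.Primes) (C : Submodule k (GQ → Matrix (Fin 2) (Fin 2) k))
    {c : GQ → Matrix (Fin 2) (Fin 2) k} (hC : c ∈ C) (hc : s56t_IsCoc B c)
    (hl : IsLevelConstant₁ (MonoidHom.id GQ) c) :
    s56gw_loc (s56t_ad0 p B) q (s56t_cls p c hc) ∈ s56t_locImage p B q C :=
  ⟨⟨c, Submodule.mem_inf.mpr ⟨hC, hc, hl⟩⟩, rfl⟩

/-- the local classes are continuous. -/
theorem s56t_locImage_le_cH1 (q : Nat.Primes)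
    (C : Submodule k (GQ → Matrix (Fin 2) (Fin 2) k)) :
    s56t_locImage p B q C ≤ s56gw_cH1 (s56t_ad0 p B) q := by
  rintro x ⟨c, rfl⟩
  show s56gw_loc (s56t_ad0 p B) q (s56t_cls p c.1 (s56t_inf_isCoc B c)) ∈ _
  rw [s56t_loc_cls']
  obtain ⟨F, hF, h⟩ := s56t_inf_level B c
  refine H1π_mem_continuousH1 _ _ ⟨F, hF, fun g s hs => ?_⟩
  apply s56t_val_injective p B
  show c.1 (primeLocalToGlobal q (g * s)) = c.1 (primeLocalToGlobal q g)
  rw [map_mul]
  exact h _ _ hs

/-- cocycles that are coboundaries on the decomposition group have trivial local class. -/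
theorem s56t_locHom_eq_zero (q : Nat.Primes) (C : Submodule k (GQ → Matrix (Fin 2) (Fin 2) k))
    (c : ↥(C ⊓ s56t_Zlev B)) (h : c.1 ∈ s56t_cobOn B (primeLocalToGlobal q).range) :
    s56t_locHom p B q C c = 0 := by
  show s56gw_loc (s56t_ad0 p B) q (s56t_cls p c.1 (s56t_inf_isCoc B c)) = 0
  rw [s56t_loc_cls', te_cl1_eq_zero_iff]
  obtain ⟨m, hm, hc⟩ := h
  refine ⟨s56t_mkV p B m hm, funext fun g => s56t_val_injective p B ?_⟩
  show c.1 (primeLocalToGlobal q g) =
    B (primeLocalToGlobal q g) * m * B (primeLocalToGlobal q g)⁻¹ - m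
  exact hc _ ⟨g, rfl⟩

/-- **the dimension bound**: `dim_{F_p} (local image) ≤ [k:F_p] · dim_k (C / C ⊓ cobOn D_q)`. -/
theorem s56t_finrank_locImage_le [Finite k] (q : Nat.Primes)
    (C : Submodule k (GQ → Matrix (Fin 2) (Fin 2) k))
    [hfin : FiniteDimensional k
      (↥C ⧸ (s56t_cobOn B (primeLocalToGlobal q).range).comap C.subtype)] :
    FiniteDimensional (ZMod p) (s56t_locImage p B q C) ∧
      finrank (ZMod p) (s56t_locImage p B q C) ≤ finrank (ZMod p) k *
        finrank k (↥C ⧸ (s56t_cobOn B (primeLocalToGlobal q).range).comap C.subtype) := by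
  set Q := ↥C ⧸ (s56t_cobOn B (primeLocalToGlobal q).range).comap C.subtype with hQ
  let g : ↥(C ⊓ s56t_Zlev B) →ₗ[k] Q :=
    (Submodule.mkQ _) ∘ₗ (Submodule.inclusion (inf_le_left : C ⊓ s56t_Zlev B ≤ C))
  haveI : Module.Finite (ZMod p) k := Module.Finite.of_finite
  haveI : FiniteDimensional (ZMod p) Q := Module.Finite.trans k Q
  have key := s56t_finrank_range_le ((s56t_locHom p B q C).toZModLinearMap p)
    (g.restrictScalars (ZMod p)) (fun c hc => by
      refine s56t_locHom_eq_zero p B q C c ?_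
      have h1 : g c = 0 := hc
      rw [LinearMap.comp_apply, Submodule.mkQ_apply, Submodule.Quotient.mk_eq_zero,
        Submodule.mem_comap] at h1
      exact h1)
  refine ⟨key.1, key.2.trans ?_⟩
  rw [Module.finrank_mul_finrank (ZMod p) k Q]

/-- **the (S-LOC) bound in the form consumed by `s56gw_Main_stmt`**:
`dim_k (C / C ⊓ cobOn D_q) ≤ h⁰_k(D_q, ad⁰) + e` gives
`dim_{F_p} L_q ≤ h⁰_{F_p}(G_q, ad⁰) + e · [k:F_p]`. -/
theorem s56t_locImage_bound [Finite k] (q : Nat.Primes)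
    (C : Submodule k (GQ → Matrix (Fin 2) (Fin 2) k)) (e : ℕ)
    [hfin : FiniteDimensional k
      (↥C ⧸ (s56t_cobOn B (primeLocalToGlobal q).range).comap C.subtype)]
    (h : finrank k (↥C ⧸ (s56t_cobOn B (primeLocalToGlobal q).range).comap C.subtype) ≤
      finrank k ↥(s56t_inv B (primeLocalToGlobal q).range) + e) :
    FiniteDimensional (ZMod p) (s56t_locImage p B q C) ∧
      finrank (ZMod p) (s56t_locImage p B q C) ≤
        finrank (ZMod p) ↥((s56gw_res (s56t_ad0 p B) q).ρ.invariants) +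
          e * finrank (ZMod p) k := by
  obtain ⟨h1, h2⟩ := s56t_finrank_locImage_le p B q C
  refine ⟨h1, h2.trans ?_⟩
  rw [s56t_finrank_invariants p B (primeLocalToGlobal q), mul_comm e, ← mul_add]
  exact Nat.mul_le_mul_left _ h

/-- the archimedean invariants. -/
theorem s56t_finrank_invariants_inf :
    finrank (ZMod p) ↥((s56gw_resInf (s56t_ad0 p B)).ρ.invariants) =
      finrank (ZMod p) k * finrank k ↥(s56t_inv B archimedeanLoc.range) :=
  s56t_finrank_invariants p B archimedeanLoc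

end

end Fermat.Agent.S56
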