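/-
S56, node [TAN]/(ASM-CLS) (helper9), file 8: THE `H⁰` TERMS OF THE GREENBERG–WILES COUNT, in the
`s56t_inv` spelling (`B : G_ℚ →* M₂(k)`).

* `s56t_finrank_inv_le_one` : if `D` contains an element `φ` with `B φ` regular (distinct
  eigenvalues in `k`), then `dim_k H⁰(D, ad⁰) ≤ 1` (Taylor–Wiles primes);
* `s56t_finrank_inv_inf`    : `det (B c) = -1` for the complex conjugation `c` ⟹
  `dim_k H⁰(G_∞, ad⁰) = 1`;
* the `F_p`-forms `s56t_h0_tw_le`, `s56t_h0_inf_eq` for the invariants of `s56gw_res M q`,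
  `s56gw_resInf M` (`M = s56t_ad0 p B`).
-/
import Mathlib
import Fermat.Agent.S56.Tan.Loc
import Fermat.Agent.S56.Loc.Inf
import Fermat.Agent.S56.Grp.Ad

set_option autoImplicit false
set_option linter.unusedSectionVars false
set_option linter.style.haveILetI false

open CategoryTheory groupCohomology ExtCitation Module Polynomial

namespace Fermat.Agent.S56

open Fermat.Agent.S53 Fermat.Agent.S55 Matrix

noncomputable section

variable {k : Type} [Field k] (B : GQ →* Matrix (Fin 2) (Fin 2) k)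

/-! ### matrices and endomorphisms of `Fin 2 → k` -/

theorem s56t_toLin_scalar {R : Matrix (Fin 2) (Fin 2) k} {c : k}
    (h : ∀ x, Matrix.toLin' R x = c • x) : R = c • (1 : Matrix (Fin 2) (Fin 2) k) := by
  apply Matrix.toLin'.injective
  refine LinearMap.ext fun x => ?_
  rw [h x, map_smul, Matrix.toLin'_one, LinearMap.smul_apply, LinearMap.id_apply]

/-- a matrix with two distinct eigenvalues is not scalar. -/
theorem s56t_not_scalar_of_regular {R : Matrix (Fin 2) (Fin 2) k} {α β : k} (hαβ : α ≠ β)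
    (h : R.charpoly = (X - C α) * (X - C β)) :
    ¬ ∃ c : k, R = c • (1 : Matrix (Fin 2) (Fin 2) k) := by
  rintro ⟨c, hc⟩
  rw [hc] at h
  have h1 : (c • (1 : Matrix (Fin 2) (Fin 2) k)).charpoly = (X - C c) ^ 2 := by
    rw [Matrix.charpoly_fin_two]
    simp only [Matrix.trace_smul, Matrix.trace_one, Fintype.card_fin, Matrix.det_smul,
      Matrix.det_one, smul_eq_mul, mul_one]
    rw [C_mul, C_pow]
    simp only [Nat.cast_ofNat, map_ofNat]
    ring
  rw [h1] at h
  have hα : (X - C c : k[X]) ^ 2 |>.IsRoot α := by rw [h]; simp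
  have hβ : (X - C c : k[X]) ^ 2 |>.IsRoot β := by rw [h]; simp
  simp only [IsRoot.def, eval_pow, eval_sub, eval_X, eval_C] at hα hβ
  have h1 : α = c := sub_eq_zero.1 ((pow_eq_zero_iff (two_ne_zero)).1 hα)
  have h2 : β = c := sub_eq_zero.1 ((pow_eq_zero_iff (two_ne_zero)).1 hβ)
  exact hαβ (h1.trans h2.symm)

/-- the centraliser of a non-scalar `2 × 2` matrix. -/
theorem s56t_centralizer {R m : Matrix (Fin 2) (Fin 2) k}
    (hR : ¬ ∃ c : k, R = c • (1 : Matrix (Fin 2) (Fin 2) k)) (hcomm : R * m = m * R) :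
    ∃ x y : k, m = x • (1 : Matrix (Fin 2) (Fin 2) k) + y • R := by
  have h2 : finrank k (Fin 2 → k) = 2 := by simp
  have hA : ¬ ∃ c : k, ∀ x, Matrix.toLin' R x = c • x := fun ⟨c, hc⟩ =>
    hR ⟨c, s56t_toLin_scalar hc⟩
  have hc : Matrix.toLin' R * Matrix.toLin' m = Matrix.toLin' m * Matrix.toLin' R := by
    rw [Module.End.mul_eq_comp, Module.End.mul_eq_comp, ← Matrix.toLin'_mul,
      ← Matrix.toLin'_mul, hcomm]
  obtain ⟨x, y, hxy⟩ := s56g_centralizer h2 hA hc
  refine ⟨x, y, Matrix.toLin'.injective ?_⟩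
  rw [hxy, map_add, map_smul, map_smul, Matrix.toLin'_one]
  rfl

/-! ### Taylor–Wiles primes -/

/-- **`dim_k H⁰(D, ad⁰) ≤ 1` when `D` contains a regular element.** -/
theorem s56t_finrank_inv_le_one (h2 : (2 : k) ≠ 0) (D : Subgroup GQ) {φ : GQ} (hφ : φ ∈ D)
    {α β : k} (hαβ : α ≠ β) (h : (B φ).charpoly = (X - C α) * (X - C β)) :
    finrank k ↥(s56t_inv B D) ≤ 1 := by
  set R := B φ with hR
  set R₀ : Matrix (Fin 2) (Fin 2) k := R - (Matrix.trace R / 2) • 1 with hR₀
  have hle : s56t_inv B D ≤ Submodule.span k {R₀} := by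
    rintro m ⟨hm, hc⟩
    obtain ⟨x, y, rfl⟩ := s56t_centralizer (s56t_not_scalar_of_regular hαβ h) (hc φ hφ)
    have hx : x = - (y * (Matrix.trace R / 2)) := by
      rw [Matrix.trace_add, Matrix.trace_smul, Matrix.trace_smul, Matrix.trace_one,
        Fintype.card_fin, smul_eq_mul, smul_eq_mul] at hm
      have h3 : x * 2 = - (y * Matrix.trace R) := by
        rw [eq_neg_iff_add_eq_zero]
        exact_mod_cast hm
      field_simp
      rw [h3]
    rw [Submodule.mem_span_singleton]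
    refine ⟨y, ?_⟩
    rw [hR₀, hx, smul_sub, smul_smul, neg_smul]
    abel
  calc finrank k ↥(s56t_inv B D) ≤ finrank k ↥(Submodule.span k {R₀}) :=
        Submodule.finrank_mono hle
    _ ≤ 1 := by
        refine (finrank_span_le_card ({R₀} : Set (Matrix (Fin 2) (Fin 2) k))).trans ?_
        simp

/-! ### the archimedean place -/

/-- the elements of `G_ℚ` whose image commutes with `m` form a subgroup. -/
def s56t_commSub (m : Matrix (Fin 2) (Fin 2) k) : Subgroup GQ where
  carrier := {s | B s * m = m * B s}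
  one_mem' := by
    show B 1 * m = m * B 1
    rw [map_one, Matrix.one_mul, Matrix.mul_one]
  mul_mem' := by
    intro s t hs ht
    show B (s * t) * m = m * B (s * t)
    have hs' : B s * m = m * B s := hs
    have ht' : B t * m = m * B t := ht
    rw [map_mul, Matrix.mul_assoc, ht', ← Matrix.mul_assoc, hs', Matrix.mul_assoc]
  inv_mem' := by
    intro s hs
    show B s⁻¹ * m = m * B s⁻¹
    have hs' : B s * m = m * B s := hs
    calc B s⁻¹ * m = B s⁻¹ * m * (B s * B s⁻¹) := by rw [s56t_B_mul_inv, Matrix.mul_one]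
      _ = B s⁻¹ * (m * B s) * B s⁻¹ := by simp only [Matrix.mul_assoc]
      _ = B s⁻¹ * (B s * m) * B s⁻¹ := by rw [hs']
      _ = (B s⁻¹ * B s) * m * B s⁻¹ := by simp only [Matrix.mul_assoc]
      _ = m * B s⁻¹ := by rw [s56t_B_inv_mul, Matrix.one_mul]

theorem s56t_mem_inv_zpowers {c : GQ} {m : Matrix (Fin 2) (Fin 2) k} :
    m ∈ s56t_inv B (Subgroup.zpowers c) ↔ Matrix.trace m = 0 ∧ B c * m = m * B c := by
  rw [s56t_mem_inv]
  constructor
  · rintro ⟨h1, h2⟩
    exact ⟨h1, h2 c (Subgroup.mem_zpowers c)⟩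
  · rintro ⟨h1, h2⟩
    refine ⟨h1, fun s hs => ?_⟩
    have hle : Subgroup.zpowers c ≤ s56t_commSub B m := by
      rw [Subgroup.zpowers_le]
      exact h2
    exact hle hs

theorem s56t_archimedeanLoc_range : archimedeanLoc.range = Subgroup.zpowers complexConjugation := by
  rw [archimedeanLoc, Subgroup.range_subtype]
  rfl

/-- **`dim_k H⁰(G_∞, ad⁰) = 1`.** -/
theorem s56t_finrank_inv_inf (h2 : (2 : k) ≠ 0)
    (hdet : (B complexConjugation).det = -1) :
    finrank k ↥(s56t_inv B archimedeanLoc.range) = 1 := by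
  set Cm := B complexConjugation with hCm
  have hCC : Cm * Cm = 1 := by
    rw [hCm, ← map_mul, complexConjugation_mul_self, map_one]
  have hV : finrank k (Fin 2 → k) = 2 := by simp
  have hC : Matrix.toLin' Cm * Matrix.toLin' Cm = 1 := by
    rw [Module.End.mul_eq_comp, ← Matrix.toLin'_mul, hCC, Matrix.toLin'_one]
    rfl
  have hd : LinearMap.det (Matrix.toLin' Cm) = -1 := by rw [LinearMap.det_toLin', hdet]
  rw [← s56li_finrank_H0 hV h2 (Matrix.toLin' Cm) hC hd, s56t_archimedeanLoc_range]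
  refine LinearEquiv.finrank_eq
    (LinearEquiv.ofSubmodules (Matrix.toLin' : Matrix (Fin 2) (Fin 2) k ≃ₗ[k] _) _ _ ?_)
  ext A
  rw [Submodule.mem_map, s56li_mem_H0]
  constructor
  · rintro ⟨m, hm, rfl⟩
    rw [s56t_mem_inv_zpowers] at hm
    simp only [LinearEquiv.coe_coe]
    refine ⟨by rw [Matrix.trace_toLin'_eq]; exact hm.1, ?_⟩
    rw [Module.End.mul_eq_comp, Module.End.mul_eq_comp, ← Matrix.toLin'_mul,
      ← Matrix.toLin'_mul, hm.2]
  · rintro ⟨hA1, hA2⟩
    refine ⟨Matrix.toLin'.symm A, ?_, LinearEquiv.apply_symm_apply _ _⟩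
    rw [s56t_mem_inv_zpowers]
    obtain ⟨m, rfl⟩ := (Matrix.toLin' : Matrix (Fin 2) (Fin 2) k ≃ₗ[k] _).surjective A
    rw [LinearEquiv.symm_apply_apply]
    rw [Matrix.trace_toLin'_eq] at hA1
    refine ⟨hA1, Matrix.toLin'.injective ?_⟩
    rw [Matrix.toLin'_mul, Matrix.toLin'_mul]
    exact hA2

/-! ### the `F_p`-forms -/

section Fp

variable (p : ℕ) [Fact p.Prime] [Algebra (ZMod p) k]

/-- **`h⁰(G_q, ad⁰) ≤ [k:F_p]` at a prime with a regular Frobenius in the image of the local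
group.** -/
theorem s56t_h0_tw_le (h2 : (2 : k) ≠ 0) (q : Nat.Primes) {φ : GQ}
    (hφ : φ ∈ (primeLocalToGlobal q).range) {α β : k} (hαβ : α ≠ β)
    (h : (B φ).charpoly = (X - C α) * (X - C β)) :
    finrank (ZMod p) ↥((s56gw_res (s56t_ad0 p B) q).ρ.invariants) ≤ finrank (ZMod p) k := by
  rw [s56t_finrank_invariants p B (primeLocalToGlobal q)]
  calc finrank (ZMod p) k * finrank k ↥(s56t_inv B (primeLocalToGlobal q).range)
      ≤ finrank (ZMod p) k * 1 :=
        Nat.mul_le_mul_left _ (s56t_finrank_inv_le_one B h2 _ hφ hαβ h)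
    _ = finrank (ZMod p) k := mul_one _

/-- **`h⁰(G_∞, ad⁰) = [k:F_p]`.** -/
theorem s56t_h0_inf_eq (h2 : (2 : k) ≠ 0) (hdet : (B complexConjugation).det = -1) :
    finrank (ZMod p) ↥((s56gw_resInf (s56t_ad0 p B)).ρ.invariants) = finrank (ZMod p) k := by
  rw [s56t_finrank_invariants_inf p B, s56t_finrank_inv_inf B h2 hdet, mul_one]

end Fp

end

end Fermat.Agent.S56
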