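/-
S56, node [TAN] (helper9), file 7: THE TWO SEAMS OF [TAN] IN `S56/Asm/Seams.lean`, and the bridge
between the `s56a_` vocabulary of the assembly and the `s56t_` files.

* `s56t_main_EqInv : s56a_EqInv_stmt`  (the frozen properties are invariant under equivalence);
* `s56t_main_Tan : s56a_Tan_stmt`      (the counting adapter, `k`-linear form);
* `s56t_ad_eq`, `s56t_cobOn_eq`, `s56t_inv_eq`, `s56t_Z_eq` : `s56a_ad p rb`, `s56a_cobOn rb D`,
  `s56a_inv rb D`, `s56a_Z rb` are (definitionally) `s56t_ad0 p rb.toMonoidHom`, … ;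
* `s56t_locShape_bound` : from `s56a_LocShape rb D_q P e` to a local condition
  `L ≤ s56gw_cH1 (s56a_ad p rb) q` with `dim_{F_p} L ≤ h⁰(G_q, ad⁰) + e·[k:F_p]` containing the
  local class of every framed lift with property `P`.
-/
import Mathlib
import Fermat.Agent.S56.Asm.Seams
import Fermat.Agent.S56.Tan.Count
import Fermat.Agent.S56.Tan.Loc

set_option autoImplicit false
set_option linter.unusedSectionVars false
set_option linter.style.haveILetI false

open CategoryTheory groupCohomology ExtCitation Module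

namespace Fermat.Agent.S56

open Fermat.Agent.S53 Fermat.Agent.S55 Matrix IsLocalRing

noncomputable section

/-! ### invariance under equivalence -/

/-- **[TAN] (EQ).** -/
theorem s56t_main_EqInv : s56a_EqInv_stmt := by
  intro A _ _ ρ ρ' h
  obtain ⟨e⟩ := h
  exact ⟨fun p => s56t_tr_detIsCyclotomic e, fun p => s56t_tr_isStrictOrdinaryAt e,
    fun p => s56t_tr_isFlatAt e, fun q => s56t_tr_isUnramifiedAt e,
    fun q => s56t_tr_isUnipotentOnInertiaAt e⟩

/-! ### the bridge of vocabularies -/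

section Bridge

variable (p : ℕ) [Fact p.Prime] {k : Type} [Field k] [Algebra (ZMod p) k]
  (rb : FramedResidual k)

theorem s56t_ad_eq : s56a_ad p rb = s56t_ad0 p rb.toMonoidHom := rfl

theorem s56t_cobOn_eq (D : Subgroup GQ) : s56a_cobOn rb D = s56t_cobOn rb.toMonoidHom D := rfl

theorem s56t_inv_eq (D : Subgroup GQ) : s56a_inv rb D = s56t_inv rb.toMonoidHom D := rfl

theorem s56t_Z_eq : s56a_Z rb = s56t_Zlev rb.toMonoidHom := by
  ext c
  rw [s56a_mem_Z, s56t_mem_Zlev]
  constructor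
  · rintro ⟨h1, h2, L, hL, h3⟩
    exact ⟨⟨h2, h1⟩, L, hL, fun g s hs => h3 g s fun x hx =>
      (IntermediateField.mem_fixingSubgroup_iff L s).mp hs x hx⟩
  · rintro ⟨⟨h2, h1⟩, L, hL, h3⟩
    exact ⟨h1, h2, L, hL, fun g s hs => h3 g s
      ((IntermediateField.mem_fixingSubgroup_iff L s).mpr fun x hx => hs x hx)⟩

end Bridge

/-! ### from `s56a_LocShape` to a local condition of `s56gw_Main_stmt` -/

section Shape

variable (p : ℕ) [Fact p.Prime] {k : Type} [Field k] [Algebra (ZMod p) k]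
  (rb : FramedResidual k)

/-- the cocycle of a framed representation over `k[ε]` has finite level. -/
theorem s56t_coc_isLevelConstant (r : FramedRep (DualNumber k)) :
    IsLevelConstant₁ (MonoidHom.id GQ) (s56t_coc r) := by
  obtain ⟨L, hL, h⟩ := s56t_coc_level r
  exact ⟨L, hL, fun g s hs => (h g s fun x hx =>
    (IntermediateField.mem_fixingSubgroup_iff L s).mp hs x hx).1⟩

/-- **from the common shape of the local nodes to a local condition**: `L_q` consists of
continuous classes, has `dim_{F_p} L_q ≤ h⁰(G_q, ad⁰) + e·[k:F_p]`, and contains the local class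
of every framed lift of `rb` with the property `P` (and trace-zero cocycle). -/
theorem s56t_locShape_bound [Finite k] (q : Nat.Primes)
    (P : FramedRep (DualNumber k) → Prop) (e : ℕ)
    (h : s56a_LocShape rb (primeLocalToGlobal q).range P e) :
    ∃ L : Submodule (ZMod p) (H1 (s56gw_res (s56t_ad0 p rb.toMonoidHom) q)),
      L ≤ s56gw_cH1 (s56t_ad0 p rb.toMonoidHom) q ∧ FiniteDimensional (ZMod p) L ∧
      finrank (ZMod p) L ≤
        finrank (ZMod p) ↥((s56gw_res (s56t_ad0 p rb.toMonoidHom) q).ρ.invariants) +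
          e * finrank (ZMod p) k ∧
      ∀ (r : FramedRep (DualNumber k)) (hc : s56t_IsCoc rb.toMonoidHom (s56t_coc r)),
        (∀ σ, s56t_bar r σ = rb σ) → P r →
        s56gw_loc (s56t_ad0 p rb.toMonoidHom) q (s56t_cls p (s56t_coc r) hc) ∈ L := by
  obtain ⟨C, hC, hfin, hrank⟩ := h
  haveI : FiniteDimensional k
      (↥C ⧸ (s56t_cobOn rb.toMonoidHom (primeLocalToGlobal q).range).comap C.subtype) := hfin
  obtain ⟨h1, h2⟩ := s56t_locImage_bound p rb.toMonoidHom q C e hrank
  exact ⟨s56t_locImage p rb.toMonoidHom q C, s56t_locImage_le_cH1 p rb.toMonoidHom q C, h1, h2,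
    fun r hc hbar hP => s56t_mem_locImage p rb.toMonoidHom q C (hC r hbar hP) hc
      (s56t_coc_isLevelConstant r)⟩

end Shape

/-! ### the counting adapter -/

section Tan

attribute [local instance] S53.dualNumberAlgebra

/-- **[TAN]: the counting adapter.** -/
theorem s56t_main_Tan : s56a_Tan_stmt := by
  intro 𝒪 _ _ _ _ _ ρbar rb hrb 𝒟 DQ h𝒟eq h𝒟 Sel n hSel hfin hrank F _
  classical
  obtain ⟨rR, hR, hlift⟩ := s56t_exists_univ_frame DQ hrb
  have hbar : ∀ (φ : DQ.R →ₐ[𝒪] DualNumber (ResidueField 𝒪)) (σ : GQ),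
      s56t_bar (s56t_frame DQ rR φ) σ = rb σ :=
    fun φ σ => s56t_frame_bar DQ rR hlift φ σ
  have hmem : ∀ φ : DQ.R →ₐ[𝒪] DualNumber (ResidueField 𝒪),
      s56t_coc (s56t_frame DQ rR φ) ∈ Sel := by
    intro φ
    by_cases hs : Function.Surjective φ
    · exact hSel _ (hbar φ) (h𝒟eq _ _ (s56t_frame_isEquiv DQ rR hR φ) (h𝒟 φ hs))
    · have h0 : s56t_coc (s56t_frame DQ rR φ) = 0 :=
        funext fun σ => s56t_frame_coc_of_not_surjective DQ rR φ hs σ
      rw [h0]
      exact Sel.zero_mem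
  set K := (s56a_cobOn rb ⊤).comap Sel.subtype with hK
  let f : {φ // φ ∈ F} → (↥Sel ⧸ K) := fun φ => Submodule.Quotient.mk ⟨_, hmem φ.1⟩
  have hinj : Function.Injective f := by
    intro φ φ' h
    have h1 : (⟨_, hmem φ.1⟩ : ↥Sel) - ⟨_, hmem φ'.1⟩ ∈ K := (Submodule.Quotient.eq K).mp h
    rw [hK, Submodule.mem_comap] at h1
    obtain ⟨m, -, hm⟩ := h1
    refine Subtype.ext (s56t_frame_inj DQ h𝒟 rR hR hlift φ.1 φ'.1 m fun σ => ?_)
    exact hm σ (Subgroup.mem_top σ)
  haveI := hfin
  haveI : Finite (↥Sel ⧸ K) := Module.finite_of_finite (ResidueField 𝒪)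
  calc F.card = Nat.card {φ // φ ∈ F} := by
        rw [Nat.card_eq_fintype_card, Fintype.card_coe]
    _ ≤ Nat.card (↥Sel ⧸ K) := Nat.card_le_card_of_injective f hinj
    _ = Nat.card (ResidueField 𝒪) ^ finrank (ResidueField 𝒪) (↥Sel ⧸ K) :=
        Module.natCard_eq_pow_finrank
    _ ≤ Nat.card (ResidueField 𝒪) ^ n := Nat.pow_le_pow_right Nat.card_pos hrank

end Tan

end

end Fermat.Agent.S56
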