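/-
S56, node [ASM], cell [ASM-CLS] (helper9, prefix `s56ac_`): THE SEAM `s56a_Cls_stmt` of
`S56/Asm/Fin.lean`.

`s56ac_main : s56a_Cls_stmt`: the local conditions `L q C` (the `F_p`-space of the local classes at
`q` of the finite-level cocycles in the `k`-subspace `C` of cochains), with
(1) membership, (2) continuity, (3) the dimension bound, (4) `[k:F_p]·h⁰_k(D_q) ≤ h⁰_{F_p}(G_q)`,
(5) `h⁰(G_q) ≤ [k:F_p]` at a prime with a regular element in `D_q` (no hypothesis on the
characteristic), (6) `[k:F_p] ≤ h⁰(G_∞)`, (7) `det rb(c) = -1`, (8) `primeLocalPlace q` lies over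
`q` and has a Frobenius element.
-/
import Mathlib
import Fermat.Agent.S56.Asm.Fin
import Fermat.Agent.S56.Tan.Main
import Fermat.Agent.S56.Tan.H0
import Fermat.Agent.S56.Loc.Inf
import Fermat.Agent.S56.GW.Unr.Main
import Fermat.Agent.JT3.ES.FrobExists

set_option autoImplicit false
set_option linter.unusedSectionVars false
set_option linter.style.haveILetI false

open CategoryTheory groupCohomology ExtCitation Module Polynomial

namespace Fermat.Agent.S56

open Fermat.Agent.S53 Fermat.Agent.S55 Matrix

noncomputable section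

variable {k : Type} [Field k] (B : GQ →* Matrix (Fin 2) (Fin 2) k)

/-- the trace of a `2 × 2` matrix with characteristic polynomial `(X - α)(X - β)`. -/
theorem s56ac_trace_of_charpoly {R : Matrix (Fin 2) (Fin 2) k} {α β : k}
    (h : R.charpoly = (X - C α) * (X - C β)) : Matrix.trace R = α + β := by
  have h1 := congrArg (fun f : k[X] => f.coeff 1) h
  simp only [Matrix.charpoly_fin_two] at h1
  have h2 : ((X - C α) * (X - C β) : k[X]) = X ^ 2 - C (α + β) * X + C (α * β) := by
    rw [C_add, C_mul]; ring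
  rw [h2] at h1
  simp only [coeff_add, coeff_sub, coeff_X_pow, coeff_C_mul, coeff_X_one, coeff_C_succ,
    mul_one] at h1
  norm_num at h1
  have h3 := neg_inj.mp (h1.trans (neg_add_rev α β).symm)
  exact h3

/-- **`dim_k H⁰(D, ad⁰) ≤ 1` when `D` contains a regular element**, in every characteristic. -/
theorem s56ac_finrank_inv_le_one (D : Subgroup GQ) {φ : GQ} (hφ : φ ∈ D)
    {α β : k} (hαβ : α ≠ β) (h : (B φ).charpoly = (X - C α) * (X - C β)) :
    finrank k ↥(s56t_inv B D) ≤ 1 := by
  by_cases h2 : (2 : k) = 0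
  · have hle : s56t_inv B D ≤ Submodule.span k {(1 : Matrix (Fin 2) (Fin 2) k)} := by
      rintro m ⟨hm, hc⟩
      obtain ⟨x, y, rfl⟩ := s56t_centralizer (s56t_not_scalar_of_regular hαβ h) (hc φ hφ)
      rw [Matrix.trace_add, Matrix.trace_smul, Matrix.trace_smul, Matrix.trace_one,
        Fintype.card_fin, smul_eq_mul, smul_eq_mul, s56ac_trace_of_charpoly h] at hm
      have h3 : x * ((2 : ℕ) : k) = 0 := by
        have : ((2 : ℕ) : k) = 0 := by exact_mod_cast h2
        rw [this, mul_zero]
      rw [h3, zero_add] at hm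
      have hab : α + β ≠ 0 := by
        intro h0
        apply hαβ
        have : α - β = α + β - 2 * β := by ring
        have h4 : α - β = 0 := by rw [this, h0, h2]; ring
        exact sub_eq_zero.1 h4
      have hy : y = 0 := (mul_eq_zero.1 hm).resolve_right hab
      rw [Submodule.mem_span_singleton]
      exact ⟨x, by rw [hy, zero_smul, add_zero]⟩
    calc finrank k ↥(s56t_inv B D)
        ≤ finrank k ↥(Submodule.span k {(1 : Matrix (Fin 2) (Fin 2) k)}) :=
          Submodule.finrank_mono hle
      _ ≤ 1 := by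
          refine (finrank_span_le_card
            ({(1 : Matrix (Fin 2) (Fin 2) k)} : Set (Matrix (Fin 2) (Fin 2) k))).trans ?_
          simp
  · exact s56t_finrank_inv_le_one B h2 D hφ hαβ h

/-- **[ASM-CLS].** -/
theorem s56ac_main : s56a_Cls_stmt := by
  intro p _ k _ _ _ rb
  refine ⟨fun q C => s56t_locImage p rb.toMonoidHom q C, ?_, ?_, ?_, ?_, ?_, ?_, ?_, ?_⟩
  · -- (1)
    intro q C c hc hC hZ
    rw [s56t_Z_eq, s56t_mem_Zlev] at hZ
    exact s56t_mem_locImage p rb.toMonoidHom q C hC hc hZ.2
  · -- (2)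
    intro q C
    exact s56t_locImage_le_cH1 p rb.toMonoidHom q C
  · -- (3)
    intro q C
    rw [← s56gwu_range q]
    intro hfin
    haveI : FiniteDimensional k
        (↥C ⧸ (s56t_cobOn rb.toMonoidHom (primeLocalToGlobal q).range).comap C.subtype) := hfin
    exact s56t_finrank_locImage_le p rb.toMonoidHom q C
  · -- (4)
    intro q
    rw [← s56gwu_range q]
    exact (s56t_finrank_invariants p rb.toMonoidHom (primeLocalToGlobal q)).ge
  · -- (5)
    rintro q φ hφ ⟨α, β, hαβ, h⟩
    rw [← s56gwu_range q] at hφ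
    have h' : (rb.toMonoidHom φ).charpoly = (X - C α) * (X - C β) := by
      rw [← h]
      exact (Matrix.charpoly_toLin' (rb.toMonoidHom φ)).symm
    show finrank (ZMod p) ↥((Rep.res (primeLocalToGlobal q)
      (s56t_ad0 p rb.toMonoidHom)).ρ.invariants) ≤ _
    rw [s56t_finrank_invariants p rb.toMonoidHom (primeLocalToGlobal q)]
    calc finrank (ZMod p) k * finrank k ↥(s56t_inv rb.toMonoidHom (primeLocalToGlobal q).range)
        ≤ finrank (ZMod p) k * 1 :=
          Nat.mul_le_mul_left _ (s56ac_finrank_inv_le_one rb.toMonoidHom _ hφ hαβ h')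
      _ = finrank (ZMod p) k := mul_one _
  · -- (6)
    intro h2 hdet
    exact (s56t_h0_inf_eq rb.toMonoidHom p h2 hdet).ge
  · -- (7)
    intro _ hyp
    have h := s56li_det_conj p rb.toResidualGaloisRep hyp.hdet
    rw [← h]
    exact (LinearMap.det_toLin' (rb.toMonoidHom complexConjugation)).symm
  · -- (8)
    intro q
    have hlo := s56gwu_place_liesOver q
    obtain ⟨φ, hφ⟩ := Fermat.Agent.JT3.fex_exists_isFrobeniusAt q.2 (primeLocalPlace q) hlo
    exact ⟨hlo, φ, hφ.mem_decompositionSubgroup, hφ⟩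

end

end Fermat.Agent.S56
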